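/-
S41 / [PD-UNIMOD] (helper84): the abstract core, part 1.
Setting: a group `G` generated by `s, u` with `s*s = u*u*u` of order ≤ 2 acting trivially on a
finite transitive `G`-set `Ω`; `t := s⁻¹ * u`.  Only non-formal hypothesis `hcoc`: for every
`m : Ω → ℤ` there is a cocycle `c` with `c s = act s m - m`, `c u = 0`.
We construct `Ψ : (Ω → ℤ) → Hom(Γ, ℤ)` and `J : X → Hom(Γ, ℤ)`, compute their kernels, and
characterise parabolic classes.
-/
import Fermat.Agent.S41.PDCore84.Cocycle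

set_option autoImplicit false

namespace Fermat.Agent.S41.PDCore84

open scoped BigOperators

/-- the abstract setting -/
structure Setting (G : Type*) [Group G] (Ω : Type*) [MulAction G Ω] where
  s : G
  u : G
  ω₀ : Ω
  hs : ∀ ω : Ω, (s * s) • ω = ω
  hsu : s * s = u * u * u
  he : (s * s) * (s * s) = 1
  hgen : Subgroup.closure ({s, u} : Set G) = ⊤
  hcoc : ∀ m : Ω → ℤ, ∃ c : G → Ω → ℤ, IsCocycle c ∧ c s = act s m - m ∧ c u = 0

namespace Setting

variable {G : Type*} [Group G] {Ω : Type*} [MulAction G Ω] (S : Setting G Ω)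

/-- the parabolic generator -/
def t : G := S.s⁻¹ * S.u

/-- the stabiliser of the base point -/
abbrev Γ : Subgroup G := MulAction.stabilizer G S.ω₀

lemma hu (ω : Ω) : (S.u * S.u * S.u) • ω = ω := by rw [← S.hsu]; exact S.hs ω

lemma act_s_s (m : Ω → ℤ) : act S.s (act S.s m) = m := by
  rw [← act_mul]; exact act_eq_self_of_fixes S.hs m

lemma act_u_u_u (m : Ω → ℤ) : act S.u (act S.u (act S.u m)) = m := by
  rw [← act_mul, ← act_mul]; exact act_eq_self_of_fixes S.hu m

lemma act_s_inv (m : Ω → ℤ) : act S.s⁻¹ m = act S.s m := by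
  conv_lhs => rw [← S.act_s_s m]
  rw [act_inv_act]

lemma act_u_inv (m : Ω → ℤ) : act S.u⁻¹ m = act S.u (act S.u m) := by
  conv_lhs => rw [← S.act_u_u_u m]
  rw [act_inv_act]

lemma act_t (m : Ω → ℤ) : act S.t m = act S.s (act S.u m) := by
  rw [t, act_mul, act_s_inv]

/-- every cocycle vanishes on `s * s` -/
lemma cocycle_ss {z : G → Ω → ℤ} (hz : IsCocycle z) : z (S.s * S.s) = 0 := by
  have h1 := hz (S.s * S.s) (S.s * S.s)
  rw [S.he, hz.map_one, act_eq_self_of_fixes S.hs] at h1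
  funext ω
  have := congrFun h1 ω
  simp only [Pi.zero_apply, Pi.add_apply] at this ⊢
  omega

/-! ### the cocycles `c m` -/

/-- the chosen cocycle with `c s = act s m - m`, `c u = 0` -/
noncomputable def c (m : Ω → ℤ) : G → Ω → ℤ := (S.hcoc m).choose

lemma c_isCocycle (m : Ω → ℤ) : IsCocycle (S.c m) := (S.hcoc m).choose_spec.1
lemma c_s (m : Ω → ℤ) : S.c m S.s = act S.s m - m := (S.hcoc m).choose_spec.2.1
lemma c_u (m : Ω → ℤ) : S.c m S.u = 0 := (S.hcoc m).choose_spec.2.2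

lemma c_unique {m : Ω → ℤ} {z : G → Ω → ℤ} (hz : IsCocycle z) (hs : z S.s = act S.s m - m)
    (hu : z S.u = 0) : z = S.c m :=
  hz.eq_of_generators (S.c_isCocycle m) S.hgen (by rw [hs, S.c_s]) (by rw [hu, S.c_u])

lemma c_add (m m' : Ω → ℤ) : S.c (m + m') = fun g => S.c m g + S.c m' g := by
  symm
  refine S.c_unique ((S.c_isCocycle m).add (S.c_isCocycle m')) ?_ ?_
  · simp only [S.c_s, map_add]; abel
  · simp only [S.c_u, add_zero]

lemma c_sub (m m' : Ω → ℤ) : S.c (m - m') = fun g => S.c m g - S.c m' g := by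
  symm
  refine S.c_unique ((S.c_isCocycle m).sub (S.c_isCocycle m')) ?_ ?_
  · simp only [S.c_s, map_sub]; abel
  · simp only [S.c_u, sub_zero]

lemma c_smul (k : ℤ) (m : Ω → ℤ) : S.c (k • m) = fun g => k • S.c m g := by
  symm
  refine S.c_unique ((S.c_isCocycle m).smul k) ?_ ?_
  · simp only [S.c_s, map_smul, smul_sub]
  · simp only [S.c_u, smul_zero]

/-- value of `c m` on the parabolic generator -/
lemma c_t (m : Ω → ℤ) : S.c m S.t = act S.s m - m := by
  rw [t, (S.c_isCocycle m), (S.c_isCocycle m).map_inv, S.c_u, map_zero, add_zero, S.c_s,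
    act_s_inv, map_sub, S.act_s_s]
  abel

/-- `Ψ m = ev (c m)`, an additive map `(Ω → ℤ) → Hom(Γ, ℤ)` -/
noncomputable def Ψ : (Ω → ℤ) →ₗ[ℤ] (Additive S.Γ →+ ℤ) where
  toFun m := ev S.ω₀ (S.c_isCocycle m)
  map_add' m m' := by
    rw [← ev_add]
    exact ev_congr _ _ _ (S.c_add m m')
  map_smul' k m := by
    refine AddMonoidHom.ext fun γ => ?_
    have := S.c_smul k m
    show S.c (k • m) _ S.ω₀ = k • (S.c m _ S.ω₀)
    rw [this]; rfl

lemma Ψ_apply (m : Ω → ℤ) (γ : S.Γ) : S.Ψ m (Additive.ofMul γ) = S.c m (γ : G) S.ω₀ := rfl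

/-! ### the lattices `X` and `K` -/

/-- `X = ker (1 + σ) ⊓ ker (1 + υ + υ²)` -/
def X : Submodule ℤ (Ω → ℤ) where
  carrier := {x | x + act S.s x = 0 ∧ x + act S.u x + act S.u (act S.u x) = 0}
  zero_mem' := by simp
  add_mem' := by
    rintro a b ⟨ha1, ha2⟩ ⟨hb1, hb2⟩
    refine ⟨?_, ?_⟩
    · simp only [map_add]
      calc a + b + (act S.s a + act S.s b) = (a + act S.s a) + (b + act S.s b) := by abel
        _ = 0 := by rw [ha1, hb1, add_zero]
    · simp only [map_add]
      calc a + b + (act S.u a + act S.u b) + (act S.u (act S.u a) + act S.u (act S.u b))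
          = (a + act S.u a + act S.u (act S.u a)) + (b + act S.u b + act S.u (act S.u b)) := by
            abel
        _ = 0 := by rw [ha2, hb2, add_zero]
  smul_mem' := by
    rintro k a ⟨ha1, ha2⟩
    refine ⟨?_, ?_⟩
    · simp only [map_smul, ← smul_add, ha1, smul_zero]
    · simp only [map_smul, ← smul_add, ha2, smul_zero]

lemma mem_X {x : Ω → ℤ} :
    x ∈ S.X ↔ x + act S.s x = 0 ∧ x + act S.u x + act S.u (act S.u x) = 0 := Iff.rfl

lemma act_s_of_mem_X {x : Ω → ℤ} (hx : x ∈ S.X) : act S.s x = -x :=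
  (eq_neg_of_add_eq_zero_right hx.1)

/-- `K = ker (σ - 1) + ker (υ - 1)` -/
def K : Submodule ℤ (Ω → ℤ) :=
  LinearMap.ker (act S.s - LinearMap.id) ⊔ LinearMap.ker (act S.u - LinearMap.id)

lemma mem_K {m : Ω → ℤ} :
    m ∈ S.K ↔ ∃ a b : Ω → ℤ, act S.s a = a ∧ act S.u b = b ∧ a + b = m := by
  unfold K
  rw [Submodule.mem_sup]
  constructor
  · rintro ⟨a, ha, b, hb, rfl⟩
    refine ⟨a, b, ?_, ?_, rfl⟩
    · simpa [sub_eq_zero] using ha
    · simpa [sub_eq_zero] using hb
  · rintro ⟨a, b, ha, hb, rfl⟩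
    exact ⟨a, by simp [ha], b, by simp [hb], rfl⟩

end Setting

end Fermat.Agent.S41.PDCore84
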