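/-
S41 / [PD-DICT] (helper84): the abstract core, part 2 — the dictionary
`(Ω → ℤ) ⧸ K ≃ Hom(Γ, ℤ)` (Shapiro + `hcoc`), parabolic classes, and the splice cocycles.
-/
import Fermat.Agent.S41.PDCore84.Core1

set_option autoImplicit false

namespace Fermat.Agent.S41.PDCore84

open scoped BigOperators

namespace Setting

variable {G : Type*} [Group G] {Ω : Type*} [MulAction G Ω] (S : Setting G Ω)

/-! ### integral exactness for `s`, `u`, `t` -/

lemma exists_act_s_sub {v : Ω → ℤ} (hv : v + act S.s v = 0) : ∃ a : Ω → ℤ, act S.s a - a = v := by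
  refine exists_act_sub_eq_of_normOp_eq_zero (g := S.s) (w := 2) (by norm_num) ?_ ?_
  · intro ω; rw [pow_two]; exact S.hs ω
  · simp only [normOp, Finset.sum_range_succ, Finset.sum_range_zero, pow_zero, act_one, zero_add,
      pow_one]
    exact hv

lemma exists_act_u_sub {v : Ω → ℤ} (hv : v + act S.u v + act S.u (act S.u v) = 0) :
    ∃ b : Ω → ℤ, act S.u b - b = v := by
  refine exists_act_sub_eq_of_normOp_eq_zero (g := S.u) (w := 3) (by norm_num) ?_ ?_
  · intro ω
    have : S.u ^ 3 = S.u * S.u * S.u := by rw [pow_succ, pow_two]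
    rw [this]; exact S.hu ω
  · simp only [normOp, Finset.sum_range_succ, Finset.sum_range_zero, pow_zero, act_one, zero_add,
      pow_one]
    rw [pow_two, act_mul]
    exact hv

/-- values of a cocycle at `s` and `u` satisfy the norm relations -/
lemma cocycle_s_rel {z : G → Ω → ℤ} (hz : IsCocycle z) : z S.s + act S.s (z S.s) = 0 := by
  rw [← hz, S.cocycle_ss hz]

lemma cocycle_u_rel {z : G → Ω → ℤ} (hz : IsCocycle z) :
    z S.u + act S.u (z S.u) + act S.u (act S.u (z S.u)) = 0 := by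
  have h := S.cocycle_ss hz
  rw [S.hsu, hz, hz, act_mul] at h
  exact h

/-! ### `Ψ` is onto with kernel `K` -/

variable [MulAction.IsPretransitive G Ω]

/-- every cocycle is cohomologous to some `c m` -/
lemma exists_c_cohomologous {z : G → Ω → ℤ} (hz : IsCocycle z) :
    ∃ m b : Ω → ℤ, z = fun g => S.c m g + cob b g := by
  obtain ⟨b, hb⟩ := S.exists_act_u_sub (S.cocycle_u_rel hz)
  have hz' : IsCocycle (fun g => z g - cob b g) := hz.sub (cob_isCocycle b)
  have hz'u : (fun g => z g - cob b g) S.u = 0 := by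
    simp only [cob_apply, hb, sub_self]
  obtain ⟨a, ha⟩ := S.exists_act_s_sub (S.cocycle_s_rel hz')
  have := S.c_unique hz' ha.symm hz'u
  refine ⟨a, b, ?_⟩
  funext g
  have hg := congrFun this g
  rw [← hg]; abel

lemma Ψ_surjective (y : Additive S.Γ →+ ℤ) : ∃ m : Ω → ℤ, S.Ψ m = y := by
  obtain ⟨m, b, h⟩ := S.exists_c_cohomologous (shap_isCocycle G S.ω₀ y)
  refine ⟨m, ?_⟩
  have h1 : ev S.ω₀ (shap_isCocycle G S.ω₀ y)
      = ev S.ω₀ ((S.c_isCocycle m).add (cob_isCocycle b)) := ev_congr _ _ _ h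
  rw [ev_shap, ev_add S.ω₀ (S.c_isCocycle m) (cob_isCocycle b), ev_cob, add_zero] at h1
  exact h1.symm

lemma Ψ_eq_zero_iff (m : Ω → ℤ) : S.Ψ m = 0 ↔ m ∈ S.K := by
  rw [S.mem_K]
  constructor
  · intro h
    obtain ⟨n, hn⟩ := exists_cob_of_ev_eq_zero S.ω₀ (S.c_isCocycle m) h
    have hs := congrFun hn S.s
    have hu := congrFun hn S.u
    rw [S.c_s, cob_apply] at hs
    rw [S.c_u, cob_apply] at hu
    refine ⟨m - n, n, ?_, ?_, by abel⟩
    · rw [map_sub]
      have : act S.s m - act S.s n - (m - n) = (act S.s m - m) - (act S.s n - n) := by abel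
      rw [← sub_eq_zero, this, hs, sub_self]
    · exact (sub_eq_zero.mp hu.symm)
  · rintro ⟨a, b, ha, hb, rfl⟩
    -- c (a + b) = cob b
    have : (cob b : G → Ω → ℤ) = S.c (a + b) := by
      refine S.c_unique (cob_isCocycle b) ?_ ?_
      · rw [cob_apply, map_add, ha]; abel
      · rw [cob_apply, hb, sub_self]
    show ev S.ω₀ (S.c_isCocycle (a + b)) = 0
    rw [← ev_cob (G := G) S.ω₀ b]
    exact ev_congr _ _ _ this.symm

lemma Ψ_eq_iff (m m' : Ω → ℤ) : S.Ψ m = S.Ψ m' ↔ m - m' ∈ S.K := by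
  rw [← S.Ψ_eq_zero_iff, map_sub, sub_eq_zero]

/-- `K` is saturated -/
lemma K_saturated [Fintype Ω] [DecidableEq Ω] : Saturated S.K := by
  intro k m hk hkm
  rw [← S.Ψ_eq_zero_iff] at hkm ⊢
  rw [map_smul] at hkm
  refine AddMonoidHom.ext fun γ => ?_
  have := congrArg (fun f : Additive S.Γ →+ ℤ => f γ) hkm
  simp only [AddMonoidHom.smul_apply, AddMonoidHom.zero_apply, smul_eq_mul, mul_eq_zero] at this
  rcases this with h | h
  · exact absurd h hk
  · exact h

/-! ### parabolic classes -/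

/-- `y` vanishes on every conjugate of a power of `t` lying in `Γ` -/
def IsPar (y : Additive S.Γ →+ ℤ) : Prop :=
  ∀ (γ : S.Γ) (g : G) (k : ℤ), (γ : G) = g * S.t ^ k * g⁻¹ → y (Additive.ofMul γ) = 0

omit [MulAction.IsPretransitive G Ω] in
/-- value of `ev z` on a conjugate lying in `Γ` -/
lemma ev_conj {z : G → Ω → ℤ} (hz : IsCocycle z) (γ : S.Γ) (g h : G)
    (hγ : (γ : G) = g * h * g⁻¹) :
    ev S.ω₀ hz (Additive.ofMul γ) = z h (g⁻¹ • S.ω₀) := by
  rw [ev_apply, hγ, hz.map_conj, ← hγ]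
  simp only [Pi.add_apply, Pi.sub_apply, act_apply, stab_inv_smul γ]
  ring

omit [MulAction.IsPretransitive G Ω] in
lemma isPar_of_t_eq_zero {z : G → Ω → ℤ} (hz : IsCocycle z) (ht : z S.t = 0) :
    S.IsPar (ev S.ω₀ hz) := by
  intro γ g k hγ
  rw [S.ev_conj hz γ g _ hγ, hz.map_zpow_eq_zero ht]; rfl

omit [MulAction.IsPretransitive G Ω] in
lemma exists_pow_fixes [Finite Ω] (g : G) : ∃ w : ℕ, 0 < w ∧ ∀ ω : Ω, g ^ w • ω = ω := by
  classical
  haveI := Fintype.ofFinite Ω
  refine ⟨orderOf (MulAction.toPermHom G Ω g), orderOf_pos _, fun ω => ?_⟩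
  have := pow_orderOf_eq_one (MulAction.toPermHom G Ω g)
  rw [← map_pow] at this
  have h2 := congrArg (fun p : Equiv.Perm Ω => p ω) this
  simpa using h2

/-- **parabolic ⇔ `z t` is a `t`-coboundary value** -/
lemma isPar_ev_iff [Finite Ω] {z : G → Ω → ℤ} (hz : IsCocycle z) :
    S.IsPar (ev S.ω₀ hz) ↔ ∃ r : Ω → ℤ, z S.t = act S.t r - r := by
  constructor
  · intro hpar
    obtain ⟨w, hw, hfix⟩ := exists_pow_fixes (Ω := Ω) S.t
    have hnorm : normOp S.t w (z S.t) = 0 := by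
      rw [← hz.map_pow]
      funext ω
      -- ω = g⁻¹ • ω₀ with g := (rep ω)⁻¹
      set g : G := (rep G S.ω₀ ω)⁻¹ with hg
      have hmem : g * S.t ^ w * g⁻¹ ∈ S.Γ := by
        rw [MulAction.mem_stabilizer_iff, mul_smul, mul_smul, hfix, smul_inv_smul]
      have := hpar ⟨_, hmem⟩ g (w : ℤ) (by simp)
      rw [S.ev_conj hz ⟨_, hmem⟩ g (S.t ^ w) rfl] at this
      rw [hg, inv_inv, rep_smul] at this
      exact this
    obtain ⟨r, hr⟩ := exists_act_sub_eq_of_normOp_eq_zero hw hfix hnorm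
    exact ⟨r, hr.symm⟩
  · rintro ⟨r, hr⟩
    have hz' : IsCocycle (fun g => z g - cob r g) := hz.sub (cob_isCocycle r)
    have ht : (fun g => z g - cob r g) S.t = 0 := by
      simp only [cob_apply, hr, sub_self]
    have := S.isPar_of_t_eq_zero hz' ht
    have h2 : ev S.ω₀ hz' = ev S.ω₀ hz := by
      rw [ev_sub S.ω₀ hz (cob_isCocycle r), ev_cob, sub_zero]
    rwa [h2] at this

/-- **the parabolic condition on representatives** (helper3's `∃ r, m - S m = r - U r`) -/
lemma isPar_Ψ_iff [Finite Ω] (m : Ω → ℤ) :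
    S.IsPar (S.Ψ m) ↔ ∃ r : Ω → ℤ, act S.s m - m = act S.t r - r := by
  have := S.isPar_ev_iff (S.c_isCocycle m)
  rw [S.c_t] at this
  exact this

/-! ### splice cocycles -/

omit [MulAction.IsPretransitive G Ω] in
/-- for `x ∈ X` there is a cocycle with `z s = z u = x` (hence `z t = 0`) -/
lemma exists_splice {x : Ω → ℤ} (hx : x ∈ S.X) :
    ∃ (z : G → Ω → ℤ) (a b : Ω → ℤ), IsCocycle z ∧ z S.s = x ∧ z S.u = x ∧
      act S.s a - a = x ∧ act S.u b - b = x ∧ z = fun g => S.c (a - b) g + cob b g := by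
  obtain ⟨a, ha⟩ := S.exists_act_s_sub hx.1
  obtain ⟨b, hb⟩ := S.exists_act_u_sub hx.2
  refine ⟨fun g => S.c (a - b) g + cob b g, a, b,
    (S.c_isCocycle (a - b)).add (cob_isCocycle b), ?_, ?_, ha, hb, rfl⟩
  · simp only [S.c_s, cob_apply, map_sub]
    rw [← ha]; abel
  · simp only [S.c_u, cob_apply, zero_add, hb]

omit [MulAction.IsPretransitive G Ω] in
lemma splice_t {z : G → Ω → ℤ} (hz : IsCocycle z) (h : z S.s = z S.u) : z S.t = 0 := by
  rw [t, hz, hz.map_inv, h, neg_add_cancel]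

omit [MulAction.IsPretransitive G Ω] in
/-- a cocycle vanishing on `t` is a splice cocycle: `z s = z u ∈ X` -/
lemma splice_of_t_eq_zero {z : G → Ω → ℤ} (hz : IsCocycle z) (ht : z S.t = 0) :
    z S.s = z S.u ∧ z S.s ∈ S.X := by
  have h1 : z S.s = z S.u := by
    have := ht
    rw [t, hz, hz.map_inv] at this
    have h2 : act S.s⁻¹ (z S.u) = act S.s⁻¹ (z S.s) := by
      have := eq_neg_of_add_eq_zero_right this
      rw [neg_neg] at this; exact this
    have h3 := congrArg (act S.s) h2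
    rw [act_act_inv, act_act_inv] at h3
    exact h3.symm
  refine ⟨h1, S.cocycle_s_rel hz, ?_⟩
  rw [h1]; exact S.cocycle_u_rel hz

/-- **every parabolic class is a splice class** -/
lemma exists_splice_of_isPar [Finite Ω] {y : Additive S.Γ →+ ℤ} (hy : S.IsPar y) :
    ∃ (z : G → Ω → ℤ) (hz : IsCocycle z), z S.s = z S.u ∧ z S.s ∈ S.X ∧ ev S.ω₀ hz = y := by
  have hz0 := shap_isCocycle G S.ω₀ y
  have hy' : S.IsPar (ev S.ω₀ hz0) := by rw [ev_shap]; exact hy
  obtain ⟨r, hr⟩ := (S.isPar_ev_iff hz0).1 hy'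
  have hz' : IsCocycle (fun g => shap G S.ω₀ y g - cob r g) := hz0.sub (cob_isCocycle r)
  have ht : (fun g => shap G S.ω₀ y g - cob r g) S.t = 0 := by
    simp only [cob_apply, hr, sub_self]
  obtain ⟨h1, h2⟩ := S.splice_of_t_eq_zero hz' ht
  refine ⟨_, hz', h1, h2, ?_⟩
  rw [ev_sub S.ω₀ hz0 (cob_isCocycle r), ev_cob, sub_zero, ev_shap]

end Setting

end Fermat.Agent.S41.PDCore84
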