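/-
S41 / [PD-DICT] (helper84): the abstract core, part 3 — the splice map `J : X → Hom_par(Γ, ℤ)`,
its kernel, the intersection form on `Hom_par(Γ, ℤ)`, antisymmetry, perfectness, and the
intersection homomorphism `Θ`.
-/
import Fermat.Agent.S41.PDCore84.Core2

set_option autoImplicit false

namespace Fermat.Agent.S41.PDCore84

open scoped BigOperators

namespace Setting

variable {G : Type*} [Group G] {Ω : Type*} [MulAction G Ω] (S : Setting G Ω)

/-- the parabolic classes, as a `ℤ`-submodule of `Hom(Γ, ℤ)` -/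
def parSub : Submodule ℤ (Additive S.Γ →+ ℤ) where
  carrier := {y | S.IsPar y}
  zero_mem' := fun _ _ _ _ => rfl
  add_mem' := by
    intro y y' hy hy' γ g k h
    show y _ + y' _ = 0
    rw [hy γ g k h, hy' γ g k h, add_zero]
  smul_mem' := by
    intro c y hy γ g k h
    show c • y _ = 0
    rw [hy γ g k h, smul_zero]

lemma mem_parSub {y : Additive S.Γ →+ ℤ} : y ∈ S.parSub ↔ S.IsPar y := Iff.rfl

/-! ### the splice map -/

/-- the splice cocycle of `x ∈ X` -/
noncomputable def spl (x : S.X) : G → Ω → ℤ := (S.exists_splice x.2).choose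

lemma spl_isCocycle (x : S.X) : IsCocycle (S.spl x) :=
  (S.exists_splice x.2).choose_spec.choose_spec.choose_spec.1

lemma spl_s (x : S.X) : S.spl x S.s = x :=
  (S.exists_splice x.2).choose_spec.choose_spec.choose_spec.2.1

lemma spl_u (x : S.X) : S.spl x S.u = x :=
  (S.exists_splice x.2).choose_spec.choose_spec.choose_spec.2.2.1

lemma spl_unique (x : S.X) {z : G → Ω → ℤ} (hz : IsCocycle z) (hs : z S.s = x) (hu : z S.u = x) :
    z = S.spl x :=
  hz.eq_of_generators (S.spl_isCocycle x) S.hgen (by rw [hs, S.spl_s]) (by rw [hu, S.spl_u])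

lemma spl_t (x : S.X) : S.spl x S.t = 0 :=
  S.splice_t (S.spl_isCocycle x) (by rw [S.spl_s, S.spl_u])

lemma spl_add (x x' : S.X) : S.spl (x + x') = fun g => S.spl x g + S.spl x' g := by
  symm
  refine S.spl_unique (x + x') ((S.spl_isCocycle x).add (S.spl_isCocycle x')) ?_ ?_
  · simp only [S.spl_s]; rfl
  · simp only [S.spl_u]; rfl

lemma spl_smul (k : ℤ) (x : S.X) : S.spl (k • x) = fun g => k • S.spl x g := by
  symm
  refine S.spl_unique (k • x) ((S.spl_isCocycle x).smul k) ?_ ?_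
  · simp only [S.spl_s]; rfl
  · simp only [S.spl_u]; rfl

/-- `spl x = c (a - b) + cob b` whenever `x = σ a - a = υ b - b` -/
lemma spl_eq (x : S.X) {a b : Ω → ℤ} (ha : act S.s a - a = x) (hb : act S.u b - b = x) :
    S.spl x = fun g => S.c (a - b) g + cob b g := by
  symm
  refine S.spl_unique x ((S.c_isCocycle (a - b)).add (cob_isCocycle b)) ?_ ?_
  · simp only [S.c_s, cob_apply, map_sub]
    rw [← ha]; abel
  · simp only [S.c_u, cob_apply, zero_add, hb]

/-- the splice map `J : X → Hom_par(Γ, ℤ)` -/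
noncomputable def J : S.X →ₗ[ℤ] S.parSub where
  toFun x := ⟨ev S.ω₀ (S.spl_isCocycle x), S.isPar_of_t_eq_zero (S.spl_isCocycle x) (S.spl_t x)⟩
  map_add' x x' := by
    apply Subtype.ext
    show ev S.ω₀ (S.spl_isCocycle (x + x'))
      = ev S.ω₀ (S.spl_isCocycle x) + ev S.ω₀ (S.spl_isCocycle x')
    rw [← ev_add S.ω₀ (S.spl_isCocycle x) (S.spl_isCocycle x')]
    exact ev_congr _ _ _ (S.spl_add x x')
  map_smul' k x := by
    apply Subtype.ext
    refine AddMonoidHom.ext fun γ => ?_
    show S.spl (k • x) _ S.ω₀ = k • (S.spl x _ S.ω₀)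
    rw [S.spl_smul]; rfl

lemma J_coe (x : S.X) : ((S.J x : S.parSub) : Additive S.Γ →+ ℤ) = ev S.ω₀ (S.spl_isCocycle x) :=
  rfl

/-- `J x = Ψ (a - b)` whenever `x = σ a - a = υ b - b` -/
lemma J_eq_Ψ (x : S.X) {a b : Ω → ℤ} (ha : act S.s a - a = x) (hb : act S.u b - b = x) :
    ((S.J x : S.parSub) : Additive S.Γ →+ ℤ) = S.Ψ (a - b) := by
  rw [J_coe]
  have h := S.spl_eq x ha hb
  have h1 : ev S.ω₀ (S.spl_isCocycle x)
      = ev S.ω₀ ((S.c_isCocycle (a - b)).add (cob_isCocycle b)) := ev_congr _ _ _ h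
  rw [h1, ev_add S.ω₀ (S.c_isCocycle (a - b)) (cob_isCocycle b), ev_cob, add_zero]
  rfl

lemma exists_ab (x : S.X) : ∃ a b : Ω → ℤ, act S.s a - a = x ∧ act S.u b - b = x := by
  obtain ⟨a, ha⟩ := S.exists_act_s_sub x.2.1
  obtain ⟨b, hb⟩ := S.exists_act_u_sub x.2.2
  exact ⟨a, b, ha, hb⟩

variable [MulAction.IsPretransitive G Ω]

/-- `J` is onto the parabolic classes -/
lemma J_surjective [Finite Ω] : Function.Surjective S.J := by
  rintro ⟨y, hy⟩
  obtain ⟨z, hz, h1, h2, h3⟩ := S.exists_splice_of_isPar hy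
  refine ⟨⟨z S.s, h2⟩, ?_⟩
  apply Subtype.ext
  rw [J_coe]
  have : z = S.spl ⟨z S.s, h2⟩ := S.spl_unique ⟨z S.s, h2⟩ hz rfl h1.symm
  show ev S.ω₀ (S.spl_isCocycle ⟨z S.s, h2⟩) = y
  rw [← h3]
  exact ev_congr _ _ _ this.symm

/-- `ker J` = the parabolic cycles `σ n - n`, `n` invariant under `t` -/
lemma J_eq_zero_iff (x : S.X) :
    S.J x = 0 ↔ ∃ n : Ω → ℤ, act S.t n = n ∧ (x : Ω → ℤ) = act S.s n - n := by
  constructor
  · intro h
    have h0 : ev S.ω₀ (S.spl_isCocycle x) = 0 := by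
      have := congrArg (fun y : S.parSub => (y : Additive S.Γ →+ ℤ)) h
      simpa [J_coe] using this
    obtain ⟨n, hn⟩ := exists_cob_of_ev_eq_zero S.ω₀ (S.spl_isCocycle x) h0
    have hs := congrFun hn S.s
    have hu := congrFun hn S.u
    rw [S.spl_s, cob_apply] at hs
    rw [S.spl_u, cob_apply] at hu
    refine ⟨n, ?_, hs⟩
    have h1 : act S.s n = act S.u n := by
      have : act S.s n - n = act S.u n - n := hs.symm.trans hu
      exact sub_left_injective this
    rw [S.act_t, ← h1, S.act_s_s]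
  · rintro ⟨n, hn, hx⟩
    have h1 : act S.u n = act S.s n := by
      have := congrArg (act S.s) hn
      rw [S.act_t, S.act_s_s] at this
      exact this
    have : (cob n : G → Ω → ℤ) = S.spl x := by
      refine S.spl_unique x (cob_isCocycle n) ?_ ?_
      · rw [cob_apply, hx]
      · rw [cob_apply, h1, hx]
    apply Subtype.ext
    rw [J_coe]
    show ev S.ω₀ (S.spl_isCocycle x) = 0
    rw [← ev_cob (G := G) S.ω₀ n]
    exact ev_congr _ _ _ this.symm

section Form

variable [Fintype Ω]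

omit [MulAction.IsPretransitive G Ω] in
lemma ip_act_s (m m' : Ω → ℤ) : ip (act S.s m) m' = ip m (act S.s m') := by
  rw [ip_act_left, S.act_s_inv]

omit [MulAction.IsPretransitive G Ω] in
/-- `X ⟂ K` -/
lemma ip_X_K {x k : Ω → ℤ} (hx : x ∈ S.X) (hk : k ∈ S.K) : ip x k = 0 := by
  obtain ⟨a, b, ha, hb, rfl⟩ := S.mem_K.1 hk
  rw [ip_add_right]
  have h1 : ip x a = 0 := by
    have : ip x a = - ip x a := by
      calc ip x a = ip x (act S.s a) := by rw [ha]
        _ = ip (act S.s x) a := (S.ip_act_s x a).symm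
        _ = - ip x a := by rw [S.act_s_of_mem_X hx, ip_neg_left]
    omega
  have h2 : ip x b = 0 := by
    have e1 : ip (act S.u x) b = ip x b := by
      rw [ip_act_left]
      have : act S.u⁻¹ b = b := by
        conv_lhs => rw [← hb]
        rw [act_inv_act]
      rw [this]
    have e2 : ip (act S.u (act S.u x)) b = ip x b := by
      rw [ip_act_left]
      have : act S.u⁻¹ b = b := by
        conv_lhs => rw [← hb]
        rw [act_inv_act]
      rw [this, e1]
    have := congrArg (fun v => ip v b) hx.2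
    simp only [ip_add_left, ip_zero_left, e1, e2] at this
    omega
  rw [h1, h2, add_zero]

variable [DecidableEq Ω]

omit [MulAction.IsPretransitive G Ω] in
/-- `X = K^⟂` -/
lemma X_eq_perp_K : S.X = perp S.K := by
  apply le_antisymm
  · intro x hx k hk
    exact S.ip_X_K hx hk
  · intro m hm
    refine ⟨?_, ?_⟩
    · apply eq_zero_of_ip_eq_zero
      intro n
      have hK : n + act S.s n ∈ S.K := S.mem_K.2 ⟨n + act S.s n, 0, by
        rw [map_add, S.act_s_s]; abel, by simp, by simp⟩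
      have := hm _ hK
      rw [ip_add_left, S.ip_act_s, ← ip_add_right]
      exact this
    · apply eq_zero_of_ip_eq_zero
      intro n
      have hK : n + act S.u n + act S.u (act S.u n) ∈ S.K :=
        S.mem_K.2 ⟨0, n + act S.u n + act S.u (act S.u n), by simp, by
          rw [map_add, map_add, S.act_u_u_u]; abel, by simp⟩
      have := hm _ hK
      -- move the `u`'s to the other side
      have e1 : ip (act S.u m) n = ip m (act S.u (act S.u n)) := by
        rw [ip_act_left, S.act_u_inv]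
      have e2 : ip (act S.u (act S.u m)) n = ip m (act S.u n) := by
        rw [ip_act_left, ip_act_left, S.act_u_inv, S.act_u_inv, S.act_u_u_u]
      rw [ip_add_left, ip_add_left, e1, e2]
      rw [ip_add_right, ip_add_right] at this
      linarith

omit [MulAction.IsPretransitive G Ω] in
lemma X_saturated : Saturated S.X := by
  rw [S.X_eq_perp_K]; exact perp_saturated _

/-- **well-definedness of the intersection form** -/
lemma ip_congr {x x₁ : S.X} {m m₁ : Ω → ℤ} (hx : S.J x = S.J x₁) (hm : S.Ψ m = S.Ψ m₁)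
    (hpar : S.IsPar (S.Ψ m)) : ip (x : Ω → ℤ) m = ip (x₁ : Ω → ℤ) m₁ := by
  have h1 : ip (x₁ : Ω → ℤ) (m - m₁) = 0 := S.ip_X_K x₁.2 ((S.Ψ_eq_iff m m₁).1 hm)
  have h2 : ip ((x - x₁ : S.X) : Ω → ℤ) m = 0 := by
    have hJ : S.J (x - x₁) = 0 := by rw [map_sub, hx, sub_self]
    obtain ⟨n, hn, hxn⟩ := (S.J_eq_zero_iff _).1 hJ
    obtain ⟨r, hr⟩ := (S.isPar_Ψ_iff m).1 hpar
    rw [hxn, ip_sub_left, S.ip_act_s, ← ip_sub_right, hr, ip_sub_right, ip_act_right]
    have : act S.t⁻¹ n = n := by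
      conv_lhs => rw [← hn]
      rw [act_inv_act]
    rw [this, sub_self]
  have h3 : ((x - x₁ : S.X) : Ω → ℤ) = (x : Ω → ℤ) - (x₁ : Ω → ℤ) := rfl
  rw [h3, ip_sub_left] at h2
  rw [ip_sub_right] at h1
  linarith

end Form

end Setting

end Fermat.Agent.S41.PDCore84
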