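/-
S41 / [PD-DICT] (helper84): the abstract core, part 4 — the intersection form on `Hom_par(Γ, ℤ)`
as a bilinear map, antisymmetry, PERFECTNESS over `ℤ`, and the intersection homomorphism `Θ`.
-/
import Fermat.Agent.S41.PDCore84.Core3

set_option autoImplicit false

namespace Fermat.Agent.S41.PDCore84

open scoped BigOperators

/-! ### two more facts on permutation modules -/

section Perm

variable {G : Type*} [Group G] {Ω : Type*} [MulAction G Ω]

lemma act_normOp {g : G} {w : ℕ} (hg : ∀ ω : Ω, g ^ w • ω = ω) (v : Ω → ℤ) :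
    act g (normOp g w v) = normOp g w v := by
  have hfix : act (g ^ w) v = v := act_eq_self_of_fixes hg v
  unfold normOp
  rw [map_sum]
  have h1 := Finset.sum_range_succ' (fun k => act (g ^ k) v) w
  have h2 := Finset.sum_range_succ (fun k => act (g ^ k) v) w
  simp only [pow_zero, act_one] at h1
  rw [hfix] at h2
  have h3 := add_right_cancel (h1.symm.trans h2)
  rw [← h3]
  refine Finset.sum_congr rfl fun k _ => ?_
  rw [← act_mul, pow_succ']

variable [Fintype Ω]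

lemma ip_self_eq_zero {v : Ω → ℤ} (h : ip v v = 0) : v = 0 := by
  unfold ip at h
  have h2 := (Finset.sum_eq_zero_iff_of_nonneg (fun ω _ => mul_self_nonneg (v ω))).1 h
  funext ω
  exact mul_self_eq_zero.mp (h2 ω (Finset.mem_univ ω))

lemma ip_normOp_left (g : G) (w : ℕ) (n v : Ω → ℤ) (hn : act g n = n) :
    ip n (normOp g w v) = (w : ℤ) * ip n v := by
  unfold normOp
  have : ∀ k : ℕ, ip n (act (g ^ k) v) = ip n v := by
    intro k
    rw [ip_act_right]
    have : act (g ^ k)⁻¹ n = n := by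
      have h1 : act (g ^ k) n = n := by
        rw [act_pow]
        induction k with
        | zero => simp
        | succ k ih => rw [pow_succ, Module.End.mul_apply, hn, ih]
      conv_lhs => rw [← h1]
      rw [act_inv_act]
    rw [this]
  induction w with
  | zero => simp
  | succ w ih =>
    rw [Finset.sum_range_succ, ip_add_right, ih, this]
    push_cast; ring

/-- `v ⟂ (invariants of g)` implies `v ∈ range (act g - 1)`, integrally -/
lemma exists_act_sub_eq_of_perp_invariants [Finite Ω] (g : G) {v : Ω → ℤ}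
    (h : ∀ n : Ω → ℤ, act g n = n → ip n v = 0) : ∃ r : Ω → ℤ, act g r - r = v := by
  obtain ⟨w, hw, hfix⟩ : ∃ w : ℕ, 0 < w ∧ ∀ ω : Ω, g ^ w • ω = ω := by
    classical
    refine ⟨orderOf (MulAction.toPermHom G Ω g), orderOf_pos _, fun ω => ?_⟩
    have := pow_orderOf_eq_one (MulAction.toPermHom G Ω g)
    rw [← map_pow] at this
    have h2 := congrArg (fun p : Equiv.Perm Ω => p ω) this
    simpa using h2
  have hinv := act_normOp hfix v
  have h0 : ip (normOp g w v) v = 0 := h _ hinv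
  have h1 : ip (normOp g w v) (normOp g w v) = 0 := by
    rw [ip_normOp_left g w _ v hinv, h0, mul_zero]
  exact exists_act_sub_eq_of_normOp_eq_zero hw hfix (ip_self_eq_zero h1)

end Perm

namespace Setting

variable {G : Type*} [Group G] {Ω : Type*} [MulAction G Ω] (S : Setting G Ω)
variable [MulAction.IsPretransitive G Ω] [Fintype Ω] [DecidableEq Ω]

/-! ### the form -/

/-- a chosen cycle representing `y` -/
noncomputable def xOf (y : S.parSub) : S.X := (S.J_surjective y).choose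

lemma J_xOf (y : S.parSub) : S.J (S.xOf y) = y := (S.J_surjective y).choose_spec

/-- a chosen function representing `y` -/
noncomputable def mOf (y : S.parSub) : Ω → ℤ := (S.Ψ_surjective (y : Additive S.Γ →+ ℤ)).choose

lemma Ψ_mOf (y : S.parSub) : S.Ψ (S.mOf y) = y :=
  (S.Ψ_surjective (y : Additive S.Γ →+ ℤ)).choose_spec

lemma isPar_mOf (y : S.parSub) : S.IsPar (S.Ψ (S.mOf y)) := by rw [S.Ψ_mOf]; exact y.2

/-- **the intersection form** on `Hom_par(Γ, ℤ)` -/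
noncomputable def form : S.parSub →ₗ[ℤ] S.parSub →ₗ[ℤ] ℤ :=
  LinearMap.mk₂ ℤ (fun y y' => ip (S.xOf y : Ω → ℤ) (S.mOf y'))
    (fun y₁ y₂ y' => by
      have h := S.ip_congr (x := S.xOf (y₁ + y₂)) (x₁ := S.xOf y₁ + S.xOf y₂)
        (m := S.mOf y') (m₁ := S.mOf y') (by rw [map_add, S.J_xOf, S.J_xOf, S.J_xOf]) rfl
        (S.isPar_mOf y')
      rw [h]
      show ip ((S.xOf y₁ : Ω → ℤ) + (S.xOf y₂ : Ω → ℤ)) _ = _
      rw [ip_add_left])
    (fun k y y' => by
      have h := S.ip_congr (x := S.xOf (k • y)) (x₁ := k • S.xOf y)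
        (m := S.mOf y') (m₁ := S.mOf y') (by rw [map_smul, S.J_xOf, S.J_xOf]) rfl
        (S.isPar_mOf y')
      rw [h]
      show ip (k • (S.xOf y : Ω → ℤ)) _ = _
      rw [ip_smul_left, smul_eq_mul])
    (fun y y₁' y₂' => by
      have h := S.ip_congr (x := S.xOf y) (x₁ := S.xOf y)
        (m := S.mOf (y₁' + y₂')) (m₁ := S.mOf y₁' + S.mOf y₂') rfl
        (by rw [map_add, S.Ψ_mOf, S.Ψ_mOf, S.Ψ_mOf]; rfl) (S.isPar_mOf _)
      rw [h, ip_add_right])
    (fun k y y' => by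
      have h := S.ip_congr (x := S.xOf y) (x₁ := S.xOf y)
        (m := S.mOf (k • y')) (m₁ := k • S.mOf y') rfl
        (by rw [map_smul, S.Ψ_mOf, S.Ψ_mOf]; rfl) (S.isPar_mOf _)
      rw [h, ip_smul_right, smul_eq_mul])

/-- **the defining property of the form** -/
lemma form_J_Ψ (x : S.X) (m : Ω → ℤ) (hm : S.IsPar (S.Ψ m)) :
    S.form (S.J x) ⟨S.Ψ m, hm⟩ = ip (x : Ω → ℤ) m := by
  show ip (S.xOf (S.J x) : Ω → ℤ) (S.mOf ⟨S.Ψ m, hm⟩) = _
  exact S.ip_congr (S.J_xOf _) (S.Ψ_mOf ⟨S.Ψ m, hm⟩) (S.isPar_mOf _)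

/-- the form on two splice classes -/
lemma form_J_J (x x' : S.X) {a' b' : Ω → ℤ} (ha' : act S.s a' - a' = x')
    (hb' : act S.u b' - b' = x') : S.form (S.J x) (S.J x') = ip (x : Ω → ℤ) (a' - b') := by
  have h := S.J_eq_Ψ x' ha' hb'
  have hpar : S.IsPar (S.Ψ (a' - b')) := by rw [← h]; exact (S.J x').2
  have : S.J x' = ⟨S.Ψ (a' - b'), hpar⟩ := Subtype.ext h
  rw [this, S.form_J_Ψ]

/-- **antisymmetry** -/
theorem form_antisymm (y y' : S.parSub) : S.form y y' = - S.form y' y := by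
  obtain ⟨x, rfl⟩ := S.J_surjective y
  obtain ⟨x', rfl⟩ := S.J_surjective y'
  obtain ⟨a, b, ha, hb⟩ := S.exists_ab x
  obtain ⟨a', b', ha', hb'⟩ := S.exists_ab x'
  rw [S.form_J_J x x' ha' hb', S.form_J_J x' x ha hb]
  -- ip x (a' - b') = ip (a + υ b) x' ; ip x' (a - b) = ip (a - b) x'
  have hσx' : act S.s (x' : Ω → ℤ) = -(x' : Ω → ℤ) := S.act_s_of_mem_X x'.2
  have e1 : ip (x : Ω → ℤ) a' = ip a (x' : Ω → ℤ) := by
    rw [← ha, ip_sub_left, S.ip_act_s, ← ip_sub_right, ha']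
  have e2 : ip (x : Ω → ℤ) b' = - ip (act S.u b) (x' : Ω → ℤ) := by
    rw [← hb, ip_sub_left, ip_act_left]
    -- ip b (υ⁻¹ b' - b') = - ip b (υ⁻¹ x')
    have : act S.u⁻¹ b' - b' = - act S.u⁻¹ (x' : Ω → ℤ) := by
      rw [← hb', map_sub, act_inv_act]; abel
    rw [← ip_sub_right, this, ip_neg_right, ← ip_act_left]
  have e3 : ip (x : Ω → ℤ) (x' : Ω → ℤ) = -2 * ip a (x' : Ω → ℤ) := by
    rw [← ha, ip_sub_left, S.ip_act_s, hσx', ip_neg_right]; ring
  have e4 : ip (x : Ω → ℤ) (x' : Ω → ℤ) = ip (act S.u b) (x' : Ω → ℤ) - ip b (x' : Ω → ℤ) := by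
    rw [← hb, ip_sub_left]
  rw [ip_sub_right, e1, e2, ip_comm (x' : Ω → ℤ), ip_sub_left]
  linarith

/-! ### perfectness -/

/-- **PERFECTNESS (existence)**: every functional on `Hom_par` is `form · y'` -/
theorem form_exists (l : S.parSub →ₗ[ℤ] ℤ) : ∃ y' : S.parSub, ∀ y, S.form y y' = l y := by
  obtain ⟨n, hn⟩ := exists_ip_eq_of_saturated S.X_saturated (l.comp S.J)
  have hpar : S.IsPar (S.Ψ n) := by
    rw [S.isPar_Ψ_iff]
    suffices h : ∃ r : Ω → ℤ, act S.t r - r = act S.s n - n by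
      obtain ⟨r, hr⟩ := h
      exact ⟨r, hr.symm⟩
    apply exists_act_sub_eq_of_perp_invariants
    intro n₀ hn₀
    -- x₀ := σ n₀ - n₀ ∈ ker J
    have hu : act S.u n₀ = act S.s n₀ := by
      have := congrArg (act S.s) hn₀
      rw [S.act_t, S.act_s_s] at this
      exact this
    have hx₀ : act S.s n₀ - n₀ ∈ S.X := by
      refine ⟨?_, ?_⟩
      · rw [map_sub, S.act_s_s]; abel
      · rw [← hu]; simp only [map_sub]; rw [S.act_u_u_u]; abel
    have hJ : S.J ⟨_, hx₀⟩ = 0 := (S.J_eq_zero_iff _).2 ⟨n₀, hn₀, rfl⟩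
    have := hn ⟨_, hx₀⟩
    rw [LinearMap.comp_apply, hJ, map_zero] at this
    rw [ip_sub_right, ← S.ip_act_s, ← ip_sub_left]
    exact this.symm
  refine ⟨⟨S.Ψ n, hpar⟩, fun y => ?_⟩
  obtain ⟨x, rfl⟩ := S.J_surjective y
  rw [S.form_J_Ψ, ← hn]; rfl

/-- **PERFECTNESS (nondegeneracy)** -/
theorem form_nondeg (y' : S.parSub) (h : ∀ y, S.form y y' = 0) : y' = 0 := by
  have hm : S.mOf y' ∈ S.K := by
    rw [← perp_perp_of_saturated S.K_saturated, ← S.X_eq_perp_K]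
    intro x hx
    have := h (S.J ⟨x, hx⟩)
    have e : y' = ⟨S.Ψ (S.mOf y'), S.isPar_mOf y'⟩ := Subtype.ext (S.Ψ_mOf y').symm
    rw [e, S.form_J_Ψ] at this
    rw [ip_comm]; exact this
  apply Subtype.ext
  rw [← S.Ψ_mOf y', (S.Ψ_eq_zero_iff _).2 hm]; rfl

theorem form_nondeg_left (y : S.parSub) (h : ∀ y', S.form y y' = 0) : y = 0 := by
  apply S.form_nondeg
  intro y'
  rw [S.form_antisymm, h, neg_zero]

theorem form_exists_left (l : S.parSub →ₗ[ℤ] ℤ) : ∃ y : S.parSub, ∀ y', S.form y y' = l y' := by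
  obtain ⟨y, hy⟩ := S.form_exists (-l)
  refine ⟨y, fun y' => ?_⟩
  rw [S.form_antisymm, hy]; simp

/-! ### the intersection homomorphism -/

/-- the cycle of `γ ∈ Γ`: `⟨xγ γ, m⟩ = Ψ m γ` -/
noncomputable def xγ (γ : S.Γ) : Ω → ℤ := fun ω => S.Ψ (Pi.single ω 1) (Additive.ofMul γ)

lemma ip_xγ (γ : S.Γ) (m : Ω → ℤ) : ip (S.xγ γ) m = S.Ψ m (Additive.ofMul γ) := by
  have hm : m = ∑ ω, m ω • (Pi.single ω (1 : ℤ) : Ω → ℤ) := by
    funext ω'
    rw [Finset.sum_apply, Finset.sum_eq_single ω']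
    · simp
    · intro b _ hb; simp [Pi.single_apply, Ne.symm hb]
    · intro h; exact absurd (Finset.mem_univ ω') h
  conv_rhs => rw [hm]
  rw [map_sum]
  unfold ip xγ
  rw [AddMonoidHom.finsetSum_apply]
  refine Finset.sum_congr rfl fun ω _ => ?_
  rw [map_smul, AddMonoidHom.smul_apply, smul_eq_mul, mul_comm]

lemma xγ_mem (γ : S.Γ) : S.xγ γ ∈ S.X := by
  rw [S.X_eq_perp_K]
  intro k hk
  rw [S.ip_xγ, (S.Ψ_eq_zero_iff k).2 hk]; rfl

lemma xγ_mul (γ γ' : S.Γ) : S.xγ (γ * γ') = S.xγ γ + S.xγ γ' := by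
  funext ω
  show S.Ψ _ (Additive.ofMul (γ * γ')) = S.Ψ _ _ + S.Ψ _ _
  rw [ofMul_mul, map_add]

/-- **the intersection homomorphism** `Θ : Γ → Hom_par(Γ, ℤ)` -/
noncomputable def Θ : Additive S.Γ →+ S.parSub where
  toFun γ := S.J ⟨S.xγ (Additive.toMul γ), S.xγ_mem _⟩
  map_zero' := by
    have : S.xγ (1 : S.Γ) = 0 := by
      have := S.xγ_mul 1 1
      rw [mul_one] at this
      have h2 : S.xγ 1 + 0 = S.xγ 1 + S.xγ 1 := by rw [add_zero]; exact this
      exact (add_left_cancel h2).symm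
    show S.J ⟨S.xγ (1 : S.Γ), _⟩ = 0
    have e : (⟨S.xγ (1 : S.Γ), S.xγ_mem _⟩ : S.X) = 0 := Subtype.ext this
    rw [e, map_zero]
  map_add' γ γ' := by
    show S.J ⟨S.xγ (Additive.toMul γ * Additive.toMul γ'), _⟩ = _
    rw [← map_add]
    congr 1
    exact Subtype.ext (S.xγ_mul _ _)

/-- **`form (Θ γ) y' = y' γ`** -/
theorem form_Θ (γ : S.Γ) (y' : S.parSub) :
    S.form (S.Θ (Additive.ofMul γ)) y' = (y' : Additive S.Γ →+ ℤ) (Additive.ofMul γ) := by
  have e : y' = ⟨S.Ψ (S.mOf y'), S.isPar_mOf y'⟩ := Subtype.ext (S.Ψ_mOf y').symm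
  conv_lhs => rw [e]
  show S.form (S.J ⟨S.xγ γ, _⟩) _ = _
  rw [S.form_J_Ψ, S.ip_xγ, S.Ψ_mOf]

end Setting

end Fermat.Agent.S41.PDCore84
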