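/-
S41 / C7c [PD-DICT] (helper84): the concrete instance of the abstract core `PDCore84.Setting`:
`G = SL(2, ℤ)`, `Ω = SL(2, ℤ) ⧸ Γ` for a finite-index subgroup `Γ ∋ -1`, `s = S`, `u = S * T`
(so `t = s⁻¹ * u = T`), `ω₀ = 1 · Γ`; the hypothesis `hcoc` is helper43's
`Pres43.sl2_existsUnique_crossed_fun_sub` (presentation of `SL(2, ℤ)`, helper37), the parabolic
condition is matched with the Prelude's `IsParabolicHom` through helper51's
`PDInst51.isParabolicHom_iff_conj_T`.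

MAIN EXPORTS: `B Γ hneg : parabolicHoms ℤ Γ ℤ →ₗ[ℤ] parabolicHoms ℤ Γ ℤ →ₗ[ℤ] ℤ`, `B_antisymm`,
`B_exists` / `B_nondeg` (PERFECTNESS over `ℤ`), and the dictionary `dict`, `dictJ`, `B_dictJ_dict`.
-/
import Fermat.Agent.S41.PDCore84.Core4
import Fermat.Agent.S41.PDInst51.Inst
import Fermat.Agent.S41.Pres43.Inst

set_option autoImplicit false

namespace Fermat.Agent.S41.PDCore84

open scoped MatrixGroups
open ModularCurve.Period

variable (Γ : Subgroup SL(2, ℤ))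

/-- the abstract setting attached to `Γ ∋ -1` -/
noncomputable def sl2Setting (hneg : (-1 : SL(2, ℤ)) ∈ Γ) :
    Setting SL(2, ℤ) (SL(2, ℤ) ⧸ Γ) where
  s := ModularGroup.S
  u := ModularGroup.S * ModularGroup.T
  ω₀ := PDInst51.base Γ
  hs := PDInst51.S_mul_S_smul hneg
  hsu := by decide
  he := by decide
  hgen := PDInst51.closure_S_ST51
  hcoc := fun m => by
    obtain ⟨z, ⟨hz, hzs, hzu⟩, _⟩ :=
      Pres43.sl2_existsUnique_crossed_fun_sub (Ω := SL(2, ℤ) ⧸ Γ) (R := ℤ)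
        (PDInst51.neg_one_smul51 hneg) m
    refine ⟨z, ?_, ?_, hzu⟩
    · intro g h; funext ω; exact hz g h ω
    · funext ω; exact hzs ω

variable {Γ}

lemma sl2Setting_t (hneg : (-1 : SL(2, ℤ)) ∈ Γ) : (sl2Setting Γ hneg).t = ModularGroup.T :=
  PDInst51.inv_S_mul_ST

lemma sl2Setting_Γ (hneg : (-1 : SL(2, ℤ)) ∈ Γ) : (sl2Setting Γ hneg).Γ = Γ :=
  PDInst51.stabilizer_base Γ

/-- transport of `Hom(stabiliser, ℤ)` to `Hom(Γ, ℤ)` -/
noncomputable def homEquiv (hneg : (-1 : SL(2, ℤ)) ∈ Γ) :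
    (Additive (sl2Setting Γ hneg).Γ →+ ℤ) ≃ₗ[ℤ] (Additive Γ →+ ℤ) where
  toFun y := y.comp (MulEquiv.toAdditive (PDInst51.stabEquiv Γ).symm).toAddMonoidHom
  invFun φ := φ.comp (MulEquiv.toAdditive (PDInst51.stabEquiv Γ)).toAddMonoidHom
  map_add' _ _ := rfl
  map_smul' _ _ := rfl
  left_inv y := by
    apply AddMonoidHom.ext
    intro γ
    show y (Additive.ofMul ((PDInst51.stabEquiv Γ).symm
      ((PDInst51.stabEquiv Γ) (Additive.toMul γ)))) = y γ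
    rw [MulEquiv.symm_apply_apply]; rfl
  right_inv φ := by
    apply AddMonoidHom.ext
    intro γ
    show φ (Additive.ofMul ((PDInst51.stabEquiv Γ)
      ((PDInst51.stabEquiv Γ).symm (Additive.toMul γ)))) = φ γ
    rw [MulEquiv.apply_symm_apply]; rfl

lemma homEquiv_apply (hneg : (-1 : SL(2, ℤ)) ∈ Γ) (y : Additive (sl2Setting Γ hneg).Γ →+ ℤ)
    (γ : Γ) : homEquiv hneg y (Additive.ofMul γ)
      = y (Additive.ofMul ((PDInst51.stabEquiv Γ).symm γ)) := rfl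

lemma homEquiv_symm_apply (hneg : (-1 : SL(2, ℤ)) ∈ Γ) (φ : Additive Γ →+ ℤ)
    (γ : (sl2Setting Γ hneg).Γ) : (homEquiv hneg).symm φ (Additive.ofMul γ)
      = φ (Additive.ofMul (PDInst51.stabEquiv Γ γ)) := rfl

/-- the abstract parabolic condition is the Prelude's -/
lemma isPar_iff (hneg : (-1 : SL(2, ℤ)) ∈ Γ) (y : Additive (sl2Setting Γ hneg).Γ →+ ℤ) :
    (sl2Setting Γ hneg).IsPar y ↔ IsParabolicHom Γ (homEquiv hneg y) := by
  rw [PDInst51.isParabolicHom_iff_conj_T hneg (fun a ha => by omega)]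
  constructor
  · intro h δ m hmem
    rw [homEquiv_apply]
    apply h _ δ m
    rw [sl2Setting_t]
    rfl
  · intro h γ g k hγ
    rw [sl2Setting_t] at hγ
    have hmem : g * ModularGroup.T ^ k * g⁻¹ ∈ Γ := by
      rw [← hγ]; exact (PDInst51.stabEquiv Γ γ).2
    have := h g k hmem
    rw [homEquiv_apply] at this
    convert this using 3
    exact Subtype.ext hγ

lemma parSub_eq_comap (hneg : (-1 : SL(2, ℤ)) ∈ Γ) :
    (sl2Setting Γ hneg).parSub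
      = (parabolicHoms ℤ Γ ℤ).comap (homEquiv hneg).toLinearMap := by
  ext y
  rw [Submodule.mem_comap, mem_parabolicHoms_iff]
  exact isPar_iff hneg y

/-- **the dictionary** `Hom_par(stabiliser, ℤ) ≃ parabolicHoms ℤ Γ ℤ` -/
noncomputable def parEquiv (hneg : (-1 : SL(2, ℤ)) ∈ Γ) :
    (sl2Setting Γ hneg).parSub ≃ₗ[ℤ] parabolicHoms ℤ Γ ℤ :=
  (LinearEquiv.ofEq _ _ (parSub_eq_comap hneg)).trans
    ((homEquiv hneg).ofSubmodule' (parabolicHoms ℤ Γ ℤ))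

lemma parEquiv_apply (hneg : (-1 : SL(2, ℤ)) ∈ Γ) (y : (sl2Setting Γ hneg).parSub) (γ : Γ) :
    (parEquiv hneg y : Additive Γ →+ ℤ) (Additive.ofMul γ)
      = (y : Additive (sl2Setting Γ hneg).Γ →+ ℤ)
          (Additive.ofMul ((PDInst51.stabEquiv Γ).symm γ)) := rfl

lemma parEquiv_symm_apply (hneg : (-1 : SL(2, ℤ)) ∈ Γ) (φ : parabolicHoms ℤ Γ ℤ)
    (γ : (sl2Setting Γ hneg).Γ) :
    (((parEquiv hneg).symm φ : (sl2Setting Γ hneg).parSub) :
        Additive (sl2Setting Γ hneg).Γ →+ ℤ) (Additive.ofMul γ)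
      = (φ : Additive Γ →+ ℤ) (Additive.ofMul (PDInst51.stabEquiv Γ γ)) := rfl

section Form

variable [Γ.FiniteIndex]

/-- the `Fintype` structure used for `ip` on `SL(2, ℤ) ⧸ Γ` (scoped instance) -/
noncomputable scoped instance fintypeQuot84 : Fintype (SL(2, ℤ) ⧸ Γ) := Fintype.ofFinite _

/-- classical decidable equality on `SL(2, ℤ) ⧸ Γ` (scoped instance) -/
noncomputable scoped instance decEqQuot84 : DecidableEq (SL(2, ℤ) ⧸ Γ) := Classical.decEq _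

/-- **THE INTERSECTION FORM on `parabolicHoms ℤ Γ ℤ`** -/
noncomputable def B (hneg : (-1 : SL(2, ℤ)) ∈ Γ) :
    parabolicHoms ℤ Γ ℤ →ₗ[ℤ] parabolicHoms ℤ Γ ℤ →ₗ[ℤ] ℤ :=
  (sl2Setting Γ hneg).form.compl₁₂ (parEquiv hneg).symm.toLinearMap
    (parEquiv hneg).symm.toLinearMap

lemma B_apply (hneg : (-1 : SL(2, ℤ)) ∈ Γ) (x y : parabolicHoms ℤ Γ ℤ) :
    B hneg x y = (sl2Setting Γ hneg).form ((parEquiv hneg).symm x) ((parEquiv hneg).symm y) := rfl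

lemma form_eq_B (hneg : (-1 : SL(2, ℤ)) ∈ Γ) (x y : (sl2Setting Γ hneg).parSub) :
    (sl2Setting Γ hneg).form x y = B hneg (parEquiv hneg x) (parEquiv hneg y) := by
  rw [B_apply, LinearEquiv.symm_apply_apply, LinearEquiv.symm_apply_apply]

theorem B_antisymm (hneg : (-1 : SL(2, ℤ)) ∈ Γ) (x y : parabolicHoms ℤ Γ ℤ) :
    B hneg x y = - B hneg y x := (sl2Setting Γ hneg).form_antisymm _ _

/-- **PERFECTNESS, existence** (the `hperf` of `PDAssembly86.hII_of_pd_ribet`) -/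
theorem B_exists (hneg : (-1 : SL(2, ℤ)) ∈ Γ) (l : parabolicHoms ℤ Γ ℤ →ₗ[ℤ] ℤ) :
    ∃ y, ∀ x, B hneg x y = l x := by
  obtain ⟨y', hy'⟩ := (sl2Setting Γ hneg).form_exists (l.comp (parEquiv hneg).toLinearMap)
  refine ⟨parEquiv hneg y', fun x => ?_⟩
  rw [B_apply, LinearEquiv.symm_apply_apply, hy', LinearMap.comp_apply]
  simp

/-- **PERFECTNESS, nondegeneracy** (the `hnd` of `PDAssembly86.hII_of_pd_ribet`) -/
theorem B_nondeg (hneg : (-1 : SL(2, ℤ)) ∈ Γ) (y : parabolicHoms ℤ Γ ℤ)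
    (h : ∀ x, B hneg x y = 0) : y = 0 := by
  have := (sl2Setting Γ hneg).form_nondeg ((parEquiv hneg).symm y) (fun x => by
    have := h (parEquiv hneg x)
    rwa [B_apply, LinearEquiv.symm_apply_apply] at this)
  simpa using this

theorem B_nondeg_left (hneg : (-1 : SL(2, ℤ)) ∈ Γ) (x : parabolicHoms ℤ Γ ℤ)
    (h : ∀ y, B hneg x y = 0) : x = 0 := by
  apply B_nondeg hneg
  intro y
  rw [B_antisymm, h, neg_zero]

theorem B_exists_left (hneg : (-1 : SL(2, ℤ)) ∈ Γ) (l : parabolicHoms ℤ Γ ℤ →ₗ[ℤ] ℤ) :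
    ∃ x, ∀ y, B hneg x y = l y := by
  obtain ⟨x, hx⟩ := B_exists hneg (-l)
  refine ⟨x, fun y => ?_⟩
  rw [B_antisymm, hx]; simp

/-! ### the dictionary in coordinates -/

/-- the class of `m : Ω → ℤ` (a "cochain" with parabolic class) in `parabolicHoms ℤ Γ ℤ` -/
noncomputable def dict (hneg : (-1 : SL(2, ℤ)) ∈ Γ) (m : SL(2, ℤ) ⧸ Γ → ℤ)
    (hm : (sl2Setting Γ hneg).IsPar ((sl2Setting Γ hneg).Ψ m)) : parabolicHoms ℤ Γ ℤ :=
  parEquiv hneg ⟨(sl2Setting Γ hneg).Ψ m, hm⟩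

/-- the class of a cycle `x ∈ X` in `parabolicHoms ℤ Γ ℤ` -/
noncomputable def dictJ (hneg : (-1 : SL(2, ℤ)) ∈ Γ) :
    (sl2Setting Γ hneg).X →ₗ[ℤ] parabolicHoms ℤ Γ ℤ :=
  (parEquiv hneg).toLinearMap.comp (sl2Setting Γ hneg).J

lemma dictJ_surjective (hneg : (-1 : SL(2, ℤ)) ∈ Γ) : Function.Surjective (dictJ hneg) :=
  (parEquiv hneg).surjective.comp (sl2Setting Γ hneg).J_surjective

lemma exists_dict (hneg : (-1 : SL(2, ℤ)) ∈ Γ) (y : parabolicHoms ℤ Γ ℤ) :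
    ∃ m hm, dict hneg m hm = y := by
  obtain ⟨m, hm⟩ := (sl2Setting Γ hneg).Ψ_surjective
    (((parEquiv hneg).symm y : (sl2Setting Γ hneg).parSub) : Additive (sl2Setting Γ hneg).Γ →+ ℤ)
  have hpar : (sl2Setting Γ hneg).IsPar ((sl2Setting Γ hneg).Ψ m) := by
    rw [hm]; exact ((parEquiv hneg).symm y).2
  refine ⟨m, hpar, ?_⟩
  unfold dict
  have : (⟨(sl2Setting Γ hneg).Ψ m, hpar⟩ : (sl2Setting Γ hneg).parSub)
      = (parEquiv hneg).symm y := Subtype.ext hm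
  rw [this, LinearEquiv.apply_symm_apply]

/-- **the defining property of `B`**: `B (class of the cycle x) (class of m) = ⟨x, m⟩` -/
theorem B_dictJ_dict (hneg : (-1 : SL(2, ℤ)) ∈ Γ) (x : (sl2Setting Γ hneg).X)
    (m : SL(2, ℤ) ⧸ Γ → ℤ) (hm : (sl2Setting Γ hneg).IsPar ((sl2Setting Γ hneg).Ψ m)) :
    B hneg (dictJ hneg x) (dict hneg m hm) = ip (x : SL(2, ℤ) ⧸ Γ → ℤ) m := by
  unfold dict dictJ
  rw [LinearMap.comp_apply, LinearEquiv.coe_coe, ← form_eq_B, (sl2Setting Γ hneg).form_J_Ψ]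

/-- the intersection homomorphism `Γ → parabolicHoms ℤ Γ ℤ` -/
noncomputable def ΘB (hneg : (-1 : SL(2, ℤ)) ∈ Γ) : Additive Γ →+ parabolicHoms ℤ Γ ℤ :=
  ((parEquiv hneg).toLinearMap.toAddMonoidHom.comp (sl2Setting Γ hneg).Θ).comp
    (MulEquiv.toAdditive (PDInst51.stabEquiv Γ).symm).toAddMonoidHom

/-- **`B (Θ γ) y = y γ`** -/
theorem B_ΘB (hneg : (-1 : SL(2, ℤ)) ∈ Γ) (γ : Γ) (y : parabolicHoms ℤ Γ ℤ) :
    B hneg (ΘB hneg (Additive.ofMul γ)) y = (y : Additive Γ →+ ℤ) (Additive.ofMul γ) := by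
  show B hneg (parEquiv hneg ((sl2Setting Γ hneg).Θ
    (Additive.ofMul ((PDInst51.stabEquiv Γ).symm γ)))) y = _
  rw [B_apply, LinearEquiv.symm_apply_apply, (sl2Setting Γ hneg).form_Θ, parEquiv_symm_apply,
    MulEquiv.apply_symm_apply]

end Form

end Fermat.Agent.S41.PDCore84
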