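/-
S41 / [PD-UNIMOD] (helper84): permutation modules `Ω → ℤ`, the standard unimodular form,
lattice lemmas (extension of functionals from saturated sublattices, double annihilator),
and the integral exactness `ker (1 + τ + ... + τ^(w-1)) ⊆ range (τ - 1)` for a permutation `τ`
of finite order dividing `w` (floor-division trick, no orbit combinatorics).
-/
import Mathlib

set_option autoImplicit false

namespace Fermat.Agent.S41.PDCore84

open scoped BigOperators

variable {G : Type*} [Group G] {Ω : Type*} [MulAction G Ω]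

/-- left regular action on functions: `(act g m) ω = m (g⁻¹ • ω)` -/
def act (g : G) : (Ω → ℤ) →ₗ[ℤ] (Ω → ℤ) := LinearMap.funLeft ℤ ℤ (fun ω => g⁻¹ • ω)

@[simp] lemma act_apply (g : G) (m : Ω → ℤ) (ω : Ω) : act g m ω = m (g⁻¹ • ω) := rfl

@[simp] lemma act_one (m : Ω → ℤ) : act (1 : G) m = m := by
  funext ω; simp

lemma act_mul (g h : G) (m : Ω → ℤ) : act (g * h) m = act g (act h m) := by
  funext ω; simp [mul_smul]

@[simp] lemma act_inv_act (g : G) (m : Ω → ℤ) : act g⁻¹ (act g m) = m := by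
  rw [← act_mul]; simp

@[simp] lemma act_act_inv (g : G) (m : Ω → ℤ) : act g (act g⁻¹ m) = m := by
  rw [← act_mul]; simp

lemma act_pow (g : G) (k : ℕ) (m : Ω → ℤ) : act (g ^ k) m = ((act g) ^ k) m := by
  induction k generalizing m with
  | zero => simp
  | succ k ih => rw [pow_succ, act_mul, ih, pow_succ, Module.End.mul_apply]

lemma act_eq_self_of_fixes {g : G} (hg : ∀ ω : Ω, g • ω = ω) (m : Ω → ℤ) : act g m = m := by
  funext ω
  have : g⁻¹ • ω = ω := by
    have := hg (g⁻¹ • ω)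
    rw [smul_inv_smul] at this
    exact this.symm
  simp [this]

section Fin

variable [Fintype Ω]

/-- the standard unimodular form on `Ω → ℤ` -/
def ip (m m' : Ω → ℤ) : ℤ := ∑ ω, m ω * m' ω

lemma ip_comm (m m' : Ω → ℤ) : ip m m' = ip m' m := by
  unfold ip; exact Finset.sum_congr rfl fun ω _ => mul_comm _ _

@[simp] lemma ip_add_left (a b c : Ω → ℤ) : ip (a + b) c = ip a c + ip b c := by
  unfold ip; rw [← Finset.sum_add_distrib]; exact Finset.sum_congr rfl fun ω _ => by
    simp [add_mul]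

@[simp] lemma ip_add_right (a b c : Ω → ℤ) : ip a (b + c) = ip a b + ip a c := by
  rw [ip_comm, ip_add_left, ip_comm b, ip_comm c]

@[simp] lemma ip_neg_left (a c : Ω → ℤ) : ip (-a) c = - ip a c := by
  unfold ip; rw [← Finset.sum_neg_distrib]; exact Finset.sum_congr rfl fun ω _ => by simp

@[simp] lemma ip_neg_right (a c : Ω → ℤ) : ip a (-c) = - ip a c := by
  rw [ip_comm, ip_neg_left, ip_comm]

@[simp] lemma ip_sub_left (a b c : Ω → ℤ) : ip (a - b) c = ip a c - ip b c := by
  rw [sub_eq_add_neg, ip_add_left, ip_neg_left, sub_eq_add_neg]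

@[simp] lemma ip_sub_right (a b c : Ω → ℤ) : ip a (b - c) = ip a b - ip a c := by
  rw [ip_comm, ip_sub_left, ip_comm b, ip_comm c]

@[simp] lemma ip_smul_left (k : ℤ) (a c : Ω → ℤ) : ip (k • a) c = k * ip a c := by
  unfold ip; rw [Finset.mul_sum]; exact Finset.sum_congr rfl fun ω _ => by
    simp [mul_assoc]

@[simp] lemma ip_smul_right (k : ℤ) (a c : Ω → ℤ) : ip a (k • c) = k * ip a c := by
  rw [ip_comm, ip_smul_left, ip_comm]

@[simp] lemma ip_zero_left (c : Ω → ℤ) : ip 0 c = 0 := by simp [ip]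

@[simp] lemma ip_zero_right (c : Ω → ℤ) : ip c 0 = 0 := by simp [ip]

/-- `ip` as a bilinear map -/
def ipₗ : (Ω → ℤ) →ₗ[ℤ] (Ω → ℤ) →ₗ[ℤ] ℤ :=
  LinearMap.mk₂ ℤ ip ip_add_left (fun k a c => by rw [ip_smul_left, smul_eq_mul]) ip_add_right
    (fun k a c => by rw [ip_smul_right, smul_eq_mul])

@[simp] lemma ipₗ_apply (a c : Ω → ℤ) : ipₗ a c = ip a c := rfl

lemma ip_act (g : G) (m m' : Ω → ℤ) : ip (act g m) (act g m') = ip m m' := by
  unfold ip
  exact Equiv.sum_comp (MulAction.toPerm g⁻¹) (fun ω => m ω * m' ω)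

lemma ip_act_left (g : G) (m m' : Ω → ℤ) : ip (act g m) m' = ip m (act g⁻¹ m') := by
  rw [← ip_act g⁻¹ (act g m) m', act_inv_act]

lemma ip_act_right (g : G) (m m' : Ω → ℤ) : ip m (act g m') = ip (act g⁻¹ m) m' := by
  rw [ip_act_left, inv_inv]

variable [DecidableEq Ω]

lemma ip_single_left (ω : Ω) (m : Ω → ℤ) : ip (Pi.single ω 1) m = m ω := by
  unfold ip
  rw [Finset.sum_eq_single ω]
  · simp
  · intro b _ hb; simp [Pi.single_apply, hb]
  · intro h; exact absurd (Finset.mem_univ ω) h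

lemma ip_single_right (ω : Ω) (m : Ω → ℤ) : ip m (Pi.single ω 1) = m ω := by
  rw [ip_comm, ip_single_left]

/-- every functional on `Ω → ℤ` is `ip · n` -/
lemma exists_ip_eq (f : (Ω → ℤ) →ₗ[ℤ] ℤ) : ∃ n : Ω → ℤ, ∀ m, f m = ip m n := by
  refine ⟨fun ω => f (Pi.single ω 1), fun m => ?_⟩
  have hm : m = ∑ ω, m ω • (Pi.single ω (1 : ℤ) : Ω → ℤ) := by
    funext ω'
    rw [Finset.sum_apply, Finset.sum_eq_single ω']
    · simp
    · intro b _ hb; simp [Pi.single_apply, Ne.symm hb]
    · intro h; exact absurd (Finset.mem_univ ω') h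
  conv_lhs => rw [hm]
  rw [map_sum]
  unfold ip
  exact Finset.sum_congr rfl fun ω _ => by rw [map_smul, smul_eq_mul]

lemma eq_zero_of_ip_eq_zero {m : Ω → ℤ} (h : ∀ n, ip m n = 0) : m = 0 := by
  funext ω
  have := h (Pi.single ω 1)
  rwa [ip_single_right] at this

/-! ### saturated sublattices -/

/-- a submodule is saturated if it is closed under division by nonzero integers -/
def Saturated (N : Submodule ℤ (Ω → ℤ)) : Prop :=
  ∀ (k : ℤ) (m : Ω → ℤ), k ≠ 0 → k • m ∈ N → m ∈ N

/-- the annihilator of a set of vectors -/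
def perp (N : Submodule ℤ (Ω → ℤ)) : Submodule ℤ (Ω → ℤ) where
  carrier := {m | ∀ n ∈ N, ip m n = 0}
  zero_mem' := fun n _ => by simp
  add_mem' := fun {a b} ha hb n hn => by simp [ha n hn, hb n hn]
  smul_mem' := fun k a ha n hn => by rw [ip_smul_left, ha n hn, mul_zero]

lemma mem_perp {N : Submodule ℤ (Ω → ℤ)} {m : Ω → ℤ} : m ∈ perp N ↔ ∀ n ∈ N, ip m n = 0 :=
  Iff.rfl

lemma perp_saturated (N : Submodule ℤ (Ω → ℤ)) : Saturated (perp N) := by
  intro k m hk h n hn
  have := h n hn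
  rw [ip_smul_left] at this
  rcases mul_eq_zero.mp this with h0 | h0
  · exact absurd h0 hk
  · exact h0

lemma le_perp_perp (N : Submodule ℤ (Ω → ℤ)) : N ≤ perp (perp N) := by
  intro n hn m hm
  rw [ip_comm]; exact hm n hn

/-- for a saturated sublattice there is a linear retraction of `Ω → ℤ` onto it -/
lemma exists_retraction {N : Submodule ℤ (Ω → ℤ)} (hN : Saturated N) :
    ∃ (r : (Ω → ℤ) →ₗ[ℤ] (Ω → ℤ)) (h : ((Ω → ℤ) ⧸ N) →ₗ[ℤ] (Ω → ℤ)),
      (∀ m, r m ∈ N) ∧ (∀ m ∈ N, r m = m) ∧ (∀ m, m = r m + h (N.mkQ m)) ∧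
      (∀ q, N.mkQ (h q) = q) := by
  have : Module.IsTorsionFree ℤ ((Ω → ℤ) ⧸ N) := by
    refine Module.IsTorsionFree.of_smul_eq_zero ?_
    intro k q hkq
    by_cases hk : k = 0
    · exact Or.inl hk
    · right
      obtain ⟨m, rfl⟩ := N.mkQ_surjective q
      have : N.mkQ (k • m) = 0 := by rw [map_smul]; exact hkq
      rw [Submodule.mkQ_apply, Submodule.Quotient.mk_eq_zero] at this
      have hm := hN k m hk this
      rw [Submodule.mkQ_apply, Submodule.Quotient.mk_eq_zero]
      exact hm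
  obtain ⟨h, hh⟩ := Module.projective_lifting_property N.mkQ
    (LinearMap.id : ((Ω → ℤ) ⧸ N) →ₗ[ℤ] _) N.mkQ_surjective
  have hh' : ∀ q, N.mkQ (h q) = q := fun q => by
    have := congrArg (fun f => f q) hh
    simpa using this
  refine ⟨LinearMap.id - h.comp N.mkQ, h, ?_, ?_, ?_, hh'⟩
  · intro m
    rw [← Submodule.Quotient.mk_eq_zero, ← Submodule.mkQ_apply]
    simp only [LinearMap.sub_apply, LinearMap.id_coe, id_eq, LinearMap.coe_comp,
      Function.comp_apply, map_sub]
    rw [hh']; simp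
  · intro m hm
    have : N.mkQ m = 0 := by
      rw [Submodule.mkQ_apply, Submodule.Quotient.mk_eq_zero]; exact hm
    simp [this]
  · intro m
    simp

/-- functionals on a saturated sublattice are restrictions of `ip · n` -/
lemma exists_ip_eq_of_saturated {N : Submodule ℤ (Ω → ℤ)} (hN : Saturated N)
    (μ : N →ₗ[ℤ] ℤ) : ∃ n : Ω → ℤ, ∀ x : N, μ x = ip (x : Ω → ℤ) n := by
  obtain ⟨r, h, hr, hrN, -, -⟩ := exists_retraction hN
  let r' : (Ω → ℤ) →ₗ[ℤ] N := LinearMap.codRestrict N r hr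
  obtain ⟨n, hn⟩ := exists_ip_eq (μ.comp r')
  refine ⟨n, fun x => ?_⟩
  rw [← hn]
  have : r' (x : Ω → ℤ) = x := by
    apply Subtype.ext
    simp only [r', LinearMap.codRestrict_apply]
    exact hrN x x.2
  simp [this]

/-- the double annihilator of a saturated sublattice is itself -/
lemma perp_perp_of_saturated {N : Submodule ℤ (Ω → ℤ)} (hN : Saturated N) :
    perp (perp N) = N := by
  refine le_antisymm ?_ (le_perp_perp N)
  intro m hm
  by_contra hmN
  obtain ⟨r, h, hr, hrN, hdec, hsec⟩ := exists_retraction hN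
  -- the component of `m` outside `N`
  set c : Ω → ℤ := h (N.mkQ m) with hc
  have hc0 : c ≠ 0 := by
    intro h0
    apply hmN
    have := hdec m
    rw [← hc, h0, add_zero] at this
    rw [this]; exact hr m
  obtain ⟨ω, hω⟩ : ∃ ω, c ω ≠ 0 := by
    by_contra hall
    push Not at hall
    exact hc0 (funext hall)
  -- the functional `m ↦ (h (mkQ m)) ω` kills `N`
  let f : (Ω → ℤ) →ₗ[ℤ] ℤ := (LinearMap.proj ω).comp (h.comp N.mkQ)
  obtain ⟨n, hn⟩ := exists_ip_eq f
  have hnperp : n ∈ perp N := by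
    intro x hx
    rw [ip_comm, ← hn]
    have : N.mkQ x = 0 := by
      rw [Submodule.mkQ_apply, Submodule.Quotient.mk_eq_zero]; exact hx
    simp [f, this]
  have h1 : ip m n = 0 := hm n hnperp
  rw [← hn] at h1
  apply hω
  simpa [f, hc] using h1

end Fin

/-! ### norm operators and integral exactness -/

/-- `normOp g w = ∑_{k < w} act (g^k)` -/
def normOp (g : G) (w : ℕ) (m : Ω → ℤ) : Ω → ℤ := ∑ k ∈ Finset.range w, act (g ^ k) m

lemma normOp_apply (g : G) (w : ℕ) (m : Ω → ℤ) (ω : Ω) :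
    normOp g w m ω = ∑ k ∈ Finset.range w, m ((g ^ k)⁻¹ • ω) := by
  simp [normOp, Finset.sum_apply]

/-- telescoping identity behind the floor-division trick -/
lemma sum_mul_act_sub (g : G) (w : ℕ) (v : Ω → ℤ) :
    ∑ k ∈ Finset.range w, (k : ℤ) • (act (g ^ (k + 1)) v - act (g ^ k) v)
      = (w : ℤ) • act (g ^ w) v - ∑ k ∈ Finset.range w, act (g ^ (k + 1)) v := by
  induction w with
  | zero => simp
  | succ w ih =>
    rw [Finset.sum_range_succ, ih, Finset.sum_range_succ]
    push_cast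
    module

/-- **integral exactness for permutation modules**: if `g ^ w` acts trivially on `Ω`, `0 < w`,
and the `w`-norm of `v` vanishes, then `v = act g n - n` for an integral `n`. -/
lemma exists_act_sub_eq_of_normOp_eq_zero {g : G} {w : ℕ} (hw : 0 < w)
    (hg : ∀ ω : Ω, g ^ w • ω = ω) {v : Ω → ℤ} (hv : normOp g w v = 0) :
    ∃ n : Ω → ℤ, act g n - n = v := by
  -- n₀ = ∑ k • act (g^k) v
  set n₀ : Ω → ℤ := ∑ k ∈ Finset.range w, (k : ℤ) • act (g ^ k) v with hn₀
  have hfix : act (g ^ w) v = v := act_eq_self_of_fixes hg v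
  have hshift : ∑ k ∈ Finset.range w, act (g ^ (k + 1)) v = normOp g w v := by
    unfold normOp
    have h1 := Finset.sum_range_succ' (fun k => act (g ^ k) v) w
    have h2 := Finset.sum_range_succ (fun k => act (g ^ k) v) w
    simp only [pow_zero, act_one] at h1
    rw [hfix] at h2
    have := h1.symm.trans h2
    exact add_right_cancel this
  have hkey : act g n₀ - n₀ = (w : ℤ) • v := by
    have h1 : act g n₀ - n₀
        = ∑ k ∈ Finset.range w, (k : ℤ) • (act (g ^ (k + 1)) v - act (g ^ k) v) := by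
      rw [hn₀, map_sum, ← Finset.sum_sub_distrib]
      refine Finset.sum_congr rfl fun k _ => ?_
      rw [map_smul, ← act_mul, ← pow_succ', smul_sub]
    rw [h1, sum_mul_act_sub, hshift, hv, hfix, sub_zero]
  refine ⟨fun ω => n₀ ω / (w : ℤ), ?_⟩
  funext ω
  have hω := congrFun hkey ω
  simp only [Pi.sub_apply, act_apply, Pi.smul_apply, smul_eq_mul] at hω
  have hw' : (w : ℤ) ≠ 0 := by exact_mod_cast hw.ne'
  simp only [Pi.sub_apply, act_apply]
  have : n₀ (g⁻¹ • ω) = n₀ ω + (w : ℤ) * v ω := by linarith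
  rw [this, Int.add_mul_ediv_left _ _ hw']
  ring

end Fermat.Agent.S41.PDCore84
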