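/-
S41 / [PD-UNIMOD] (helper84): 1-cocycles `G → (Ω → ℤ)`, coboundaries, evaluation at a base point
(Shapiro map to `Hom(Stab ω₀, ℤ)`), its inverse and injectivity on classes.
-/
import Fermat.Agent.S41.PDCore84.Perm

set_option autoImplicit false

namespace Fermat.Agent.S41.PDCore84

open scoped BigOperators

variable {G : Type*} [Group G] {Ω : Type*} [MulAction G Ω]

/-- 1-cocycles with values in the permutation module -/
def IsCocycle (z : G → Ω → ℤ) : Prop := ∀ g h : G, z (g * h) = z g + act g (z h)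

namespace IsCocycle

variable {z z' : G → Ω → ℤ}

lemma map_one (hz : IsCocycle z) : z 1 = 0 := by
  have := hz 1 1
  simp only [mul_one, act_one] at this
  have h2 : z 1 + 0 = z 1 + z 1 := by rw [add_zero]; exact this
  exact (add_left_cancel h2).symm

lemma map_inv (hz : IsCocycle z) (g : G) : z g⁻¹ = - act g⁻¹ (z g) := by
  have := hz g⁻¹ g
  rw [inv_mul_cancel, hz.map_one] at this
  exact eq_neg_of_add_eq_zero_left this.symm

lemma add (hz : IsCocycle z) (hz' : IsCocycle z') : IsCocycle (fun g => z g + z' g) := by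
  intro g h
  simp only [hz g h, hz' g h, map_add]
  abel

lemma sub (hz : IsCocycle z) (hz' : IsCocycle z') : IsCocycle (fun g => z g - z' g) := by
  intro g h
  simp only [hz g h, hz' g h, map_sub]
  abel

lemma neg (hz : IsCocycle z) : IsCocycle (fun g => - z g) := by
  intro g h
  simp only [hz g h, map_neg]
  abel

lemma smul (k : ℤ) (hz : IsCocycle z) : IsCocycle (fun g => k • z g) := by
  intro g h
  simp only [hz g h, map_smul, smul_add]

lemma zero : IsCocycle (fun _ : G => (0 : Ω → ℤ)) := by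
  intro g h; simp

lemma sum {ι : Type*} (s : Finset ι) (f : ι → G → Ω → ℤ) (hf : ∀ i ∈ s, IsCocycle (f i)) :
    IsCocycle (fun g => ∑ i ∈ s, f i g) := by
  intro g h
  rw [map_sum, ← Finset.sum_add_distrib]
  exact Finset.sum_congr rfl fun i hi => hf i hi g h

lemma map_pow (hz : IsCocycle z) (g : G) (k : ℕ) : z (g ^ k) = normOp g k (z g) := by
  induction k with
  | zero => simp [normOp, hz.map_one]
  | succ k ih =>
    rw [pow_succ, hz, ih]
    unfold normOp
    rw [Finset.sum_range_succ]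

lemma map_pow_eq_zero (hz : IsCocycle z) {g : G} (hg : z g = 0) (k : ℕ) : z (g ^ k) = 0 := by
  rw [hz.map_pow, hg]; simp [normOp]

lemma map_zpow_eq_zero (hz : IsCocycle z) {g : G} (hg : z g = 0) (k : ℤ) : z (g ^ k) = 0 := by
  cases k with
  | ofNat n => simpa using hz.map_pow_eq_zero hg n
  | negSucc n =>
    rw [zpow_negSucc, hz.map_inv, hz.map_pow_eq_zero hg]; simp

/-- value on a conjugate -/
lemma map_conj (hz : IsCocycle z) (g h : G) :
    z (g * h * g⁻¹) = z g + act g (z h) - act (g * h * g⁻¹) (z g) := by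
  rw [hz (g * h) g⁻¹, hz g h, hz.map_inv, map_neg, ← act_mul]
  have : g * h * g⁻¹ = g * h * g⁻¹ := rfl
  abel

/-- two cocycles agreeing on a generating pair agree -/
lemma eq_of_generators (hz : IsCocycle z) (hz' : IsCocycle z') {s u : G}
    (hgen : Subgroup.closure ({s, u} : Set G) = ⊤) (hs : z s = z' s) (hu : z u = z' u) :
    z = z' := by
  funext g
  have hg : g ∈ Subgroup.closure ({s, u} : Set G) := by rw [hgen]; trivial
  induction hg using Subgroup.closure_induction with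
  | mem x hx =>
    rcases hx with rfl | hx
    · exact hs
    · rw [Set.mem_singleton_iff] at hx; subst hx; exact hu
  | one => rw [hz.map_one, hz'.map_one]
  | mul x y _ _ hx hy => rw [hz, hz', hx, hy]
  | inv x _ hx => rw [hz.map_inv, hz'.map_inv, hx]

end IsCocycle

/-- coboundary of `n` -/
def cob (n : Ω → ℤ) : G → Ω → ℤ := fun g => act g n - n

lemma cob_isCocycle (n : Ω → ℤ) : IsCocycle (cob (G := G) n) := by
  intro g h
  simp only [cob, act_mul, map_sub]
  abel

@[simp] lemma cob_apply (n : Ω → ℤ) (g : G) : cob n g = act g n - n := rfl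

/-! ### evaluation at a base point -/

lemma stab_inv_smul {ω₀ : Ω} (γ : MulAction.stabilizer G ω₀) : (γ : G)⁻¹ • ω₀ = ω₀ := by
  rw [inv_smul_eq_iff]; exact (γ.2).symm

/-- the Shapiro map: a cocycle gives a homomorphism on the stabiliser of `ω₀` -/
def ev (ω₀ : Ω) {z : G → Ω → ℤ} (hz : IsCocycle z) :
    Additive (MulAction.stabilizer G ω₀) →+ ℤ where
  toFun γ := z ((Additive.toMul γ : MulAction.stabilizer G ω₀) : G) ω₀
  map_zero' := by
    show z ((1 : MulAction.stabilizer G ω₀) : G) ω₀ = 0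
    rw [Subgroup.coe_one, hz.map_one]; rfl
  map_add' γ γ' := by
    show z (((Additive.toMul γ * Additive.toMul γ' : MulAction.stabilizer G ω₀)) : G) ω₀ = _
    rw [Subgroup.coe_mul, hz]
    have h : ((Additive.toMul γ : MulAction.stabilizer G ω₀) : G)⁻¹ • ω₀ = ω₀ :=
      stab_inv_smul _
    simp only [Pi.add_apply, act_apply, h]

@[simp] lemma ev_apply (ω₀ : Ω) {z : G → Ω → ℤ} (hz : IsCocycle z)
    (γ : MulAction.stabilizer G ω₀) : ev ω₀ hz (Additive.ofMul γ) = z (γ : G) ω₀ := rfl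

lemma ev_cob (ω₀ : Ω) (n : Ω → ℤ) : ev ω₀ (cob_isCocycle (G := G) n) = 0 := by
  refine AddMonoidHom.ext fun γ => ?_
  have h : ((Additive.toMul γ : MulAction.stabilizer G ω₀) : G)⁻¹ • ω₀ = ω₀ :=
    stab_inv_smul _
  show cob n ((Additive.toMul γ : MulAction.stabilizer G ω₀) : G) ω₀ = 0
  simp [cob, h]

lemma ev_add (ω₀ : Ω) {z z' : G → Ω → ℤ} (hz : IsCocycle z) (hz' : IsCocycle z') :
    ev ω₀ (hz.add hz') = ev ω₀ hz + ev ω₀ hz' :=
  AddMonoidHom.ext fun _ => rfl

lemma ev_sub (ω₀ : Ω) {z z' : G → Ω → ℤ} (hz : IsCocycle z) (hz' : IsCocycle z') :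
    ev ω₀ (hz.sub hz') = ev ω₀ hz - ev ω₀ hz' :=
  AddMonoidHom.ext fun _ => rfl

lemma ev_congr (ω₀ : Ω) {z z' : G → Ω → ℤ} (hz : IsCocycle z) (hz' : IsCocycle z')
    (h : z = z') : ev ω₀ hz = ev ω₀ hz' := by
  subst h; rfl

/-! ### Shapiro inverse -/

section Transitive

variable (G) [MulAction.IsPretransitive G Ω] (ω₀ : Ω)

/-- a representative `rep ω` with `rep ω • ω₀ = ω` -/
noncomputable def rep (ω : Ω) : G := (MulAction.exists_smul_eq G ω₀ ω).choose

lemma rep_smul (ω : Ω) : rep G ω₀ ω • ω₀ = ω := (MulAction.exists_smul_eq G ω₀ ω).choose_spec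

lemma shapElt_mem (g : G) (ω : Ω) :
    (rep G ω₀ ω)⁻¹ * g * rep G ω₀ (g⁻¹ • ω) ∈ MulAction.stabilizer G ω₀ := by
  rw [MulAction.mem_stabilizer_iff, mul_smul, mul_smul, rep_smul, smul_inv_smul,
    inv_smul_eq_iff, rep_smul]

/-- the element of the stabiliser attached to `(g, ω)` -/
noncomputable def shapElt (g : G) (ω : Ω) : MulAction.stabilizer G ω₀ :=
  ⟨_, shapElt_mem G ω₀ g ω⟩

lemma shapElt_mul (g h : G) (ω : Ω) :
    shapElt G ω₀ (g * h) ω = shapElt G ω₀ g ω * shapElt G ω₀ h (g⁻¹ • ω) := by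
  apply Subtype.ext
  simp only [shapElt, Subgroup.coe_mul, mul_inv_rev, mul_smul]
  group

/-- the Shapiro cocycle of a homomorphism on the stabiliser -/
noncomputable def shap (φ : Additive (MulAction.stabilizer G ω₀) →+ ℤ) : G → Ω → ℤ :=
  fun g ω => φ (Additive.ofMul (shapElt G ω₀ g ω))

lemma shap_isCocycle (φ : Additive (MulAction.stabilizer G ω₀) →+ ℤ) :
    IsCocycle (shap G ω₀ φ) := by
  intro g h
  funext ω
  simp only [shap, Pi.add_apply, act_apply, shapElt_mul G ω₀, ofMul_mul, map_add]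

lemma ev_shap (φ : Additive (MulAction.stabilizer G ω₀) →+ ℤ) :
    ev ω₀ (shap_isCocycle G ω₀ φ) = φ := by
  refine AddMonoidHom.ext fun γ' => ?_
  let γ : MulAction.stabilizer G ω₀ := Additive.toMul γ'
  change shap G ω₀ φ (γ : G) ω₀ = φ (Additive.ofMul γ)
  simp only [shap]
  -- shapElt γ ω₀ = r₀⁻¹ γ r₀ with r₀ in the stabiliser
  have hγ : (γ : G)⁻¹ • ω₀ = ω₀ := stab_inv_smul γ
  have hr : rep G ω₀ ω₀ ∈ MulAction.stabilizer G ω₀ := rep_smul G ω₀ ω₀
  set r₀ : MulAction.stabilizer G ω₀ := ⟨rep G ω₀ ω₀, hr⟩ with hr₀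
  have : shapElt G ω₀ (γ : G) ω₀ = r₀⁻¹ * γ * r₀ := by
    apply Subtype.ext
    simp [shapElt, hγ, hr₀]
  rw [this, ofMul_mul, ofMul_mul, map_add, map_add, ofMul_inv, map_neg]
  abel

variable {G} in
/-- Shapiro injectivity: a cocycle whose evaluation vanishes is a coboundary -/
lemma exists_cob_of_ev_eq_zero {z : G → Ω → ℤ} (hz : IsCocycle z) (h : ev ω₀ hz = 0) :
    ∃ n : Ω → ℤ, z = cob n := by
  refine ⟨fun ω => - z (rep G ω₀ ω) ω, ?_⟩
  funext g ω
  simp only [cob, Pi.sub_apply, act_apply, sub_neg_eq_add]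
  -- g * rep (g⁻¹ ω) = rep ω * γ
  set γ := shapElt G ω₀ g ω with hγ
  have hmul : g * rep G ω₀ (g⁻¹ • ω) = rep G ω₀ ω * (γ : G) := by
    simp only [hγ, shapElt]; group
  have h1 : z (g * rep G ω₀ (g⁻¹ • ω)) ω = z g ω + z (rep G ω₀ (g⁻¹ • ω)) (g⁻¹ • ω) := by
    rw [hz]; rfl
  have h2 : z (rep G ω₀ ω * (γ : G)) ω = z (rep G ω₀ ω) ω + z (γ : G) ω₀ := by
    rw [hz]
    simp only [Pi.add_apply, act_apply]
    rw [inv_smul_eq_iff.mpr (rep_smul G ω₀ ω).symm]
  have h3 : z (γ : G) ω₀ = 0 := by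
    have := congrArg (fun f => f (Additive.ofMul γ)) h
    simpa using this
  rw [hmul, h2, h3, add_zero] at h1
  linarith

end Transitive

end Fermat.Agent.S41.PDCore84
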