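/-
S41 / C7c [PD-DICT] (helper84): functoriality of the abstract core `PDCore84.Setting` along an
equivariant map `π : Ω' → Ω` of `G`-sets (think `G ⧸ Γ' → G ⧸ Γ`, `Γ' ≤ Γ`):
`res` (= restriction of homs to `Γ' ≤ Γ`) corresponds to `pull`, the abstract `cores`
(= transfer, see `cores_apply_of_reps`) corresponds to `push`, and they are ADJOINT for the
intersection forms: `form' (res y) y' = form y (cores y')`.
`pull`, `push`, `act_pull`, `act_push`, `sum_ev_eq_ev_push` are helper24's (`PDInst24.Functorial`).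
-/
import Fermat.Agent.S41.PDCore84.Core4
import Fermat.Agent.S41.PDInst24.Functorial

set_option autoImplicit false

namespace Fermat.Agent.S41.PDCore84

open scoped BigOperators
open Fermat.Agent.S41.PDInst24 (pull push)

section Bridge22

variable {G : Type*} [Group G] {Ω : Type*} [MulAction G Ω]

/-- our `act` is `CuspSum22.act` at `R = ℤ` -/
lemma act_eq22 (g : G) (m : Ω → ℤ) : act g m = CuspSum22.act g m := rfl

/-- our cocycles are `CuspSum22.IsCoc` at `R = ℤ` -/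
lemma isCocycle_iff22 {z : G → Ω → ℤ} : IsCocycle z ↔ CuspSum22.IsCoc z := Iff.rfl

lemma ev_eq22 (ω₀ : Ω) {z : G → Ω → ℤ} (hz : IsCocycle z) (γ : MulAction.stabilizer G ω₀) :
    ev ω₀ hz (Additive.ofMul γ) = CuspSum22.ev ω₀ z γ := rfl

end Bridge22

variable {G : Type*} [Group G] {Ω' Ω : Type*} [MulAction G Ω'] [MulAction G Ω]

/-- a morphism of settings: an equivariant map of `G`-sets respecting `s`, `u` and base points -/
structure Setting.Mor (S' : Setting G Ω') (S : Setting G Ω) where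
  π : Ω' → Ω
  hπ : ∀ (g : G) (x : Ω'), π (g • x) = g • π x
  hs : S'.s = S.s
  hu : S'.u = S.u
  hω : π S'.ω₀ = S.ω₀

namespace Setting.Mor

variable {S' : Setting G Ω'} {S : Setting G Ω} (φ : S'.Mor S)

include φ

lemma ht : S'.t = S.t := by unfold Setting.t; rw [φ.hs, φ.hu]

/-! ### `pull` -/

lemma act_pull (g : G) (m : Ω → ℤ) : act g (pull φ.π m) = pull φ.π (act g m) :=
  PDInst24.act_pull φ.hπ g m

lemma pull_add (m m₁ : Ω → ℤ) : pull φ.π (m + m₁) = pull φ.π m + pull φ.π m₁ := rfl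
lemma pull_sub (m m₁ : Ω → ℤ) : pull φ.π (m - m₁) = pull φ.π m - pull φ.π m₁ := rfl
lemma pull_zero : pull φ.π (0 : Ω → ℤ) = 0 := rfl

lemma isCocycle_pull {z : G → Ω → ℤ} (hz : IsCocycle z) :
    IsCocycle (fun g => pull φ.π (z g)) := PDInst24.isCoc_pull φ.hπ hz

lemma c_pull (m : Ω → ℤ) : S'.c (pull φ.π m) = fun g => pull φ.π (S.c m g) := by
  symm
  refine S'.c_unique (φ.isCocycle_pull (S.c_isCocycle m)) ?_ ?_
  · show pull φ.π (S.c m S'.s) = _
    rw [φ.hs, S.c_s, φ.act_pull]; rfl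
  · show pull φ.π (S.c m S'.u) = _
    rw [φ.hu, S.c_u]; rfl

lemma Γ_le : S'.Γ ≤ S.Γ := by
  intro g hg
  rw [MulAction.mem_stabilizer_iff] at hg ⊢
  rw [← φ.hω, ← φ.hπ, hg]

/-- restriction of homs from `Γ` to `Γ' ≤ Γ` -/
def res : (Additive S.Γ →+ ℤ) →ₗ[ℤ] (Additive S'.Γ →+ ℤ) where
  toFun y := y.comp (MonoidHom.toAdditive (Subgroup.inclusion φ.Γ_le))
  map_add' _ _ := rfl
  map_smul' _ _ := rfl

lemma res_apply (y : Additive S.Γ →+ ℤ) (γ : S'.Γ) :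
    φ.res y (Additive.ofMul γ) = y (Additive.ofMul ⟨(γ : G), φ.Γ_le γ.2⟩) := rfl

lemma Ψ_pull (m : Ω → ℤ) : S'.Ψ (pull φ.π m) = φ.res (S.Ψ m) := by
  have key : ∀ g : G, S'.c (pull φ.π m) g S'.ω₀ = S.c m g S.ω₀ := by
    intro g; rw [φ.c_pull, ← φ.hω]; rfl
  exact AddMonoidHom.ext fun γ => key _

lemma pull_mem_X {x : Ω → ℤ} (hx : x ∈ S.X) : pull φ.π x ∈ S'.X := by
  obtain ⟨h1, h2⟩ := hx
  refine ⟨?_, ?_⟩
  · rw [φ.hs, φ.act_pull, ← φ.pull_add, h1]; rfl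
  · rw [φ.hu, φ.act_pull, φ.act_pull, ← φ.pull_add, ← φ.pull_add, h2]; rfl

/-- `pull` on cycles -/
def pullX : S.X →ₗ[ℤ] S'.X where
  toFun x := ⟨pull φ.π x, φ.pull_mem_X x.2⟩
  map_add' _ _ := rfl
  map_smul' _ _ := rfl

lemma spl_pull (x : S.X) : S'.spl (φ.pullX x) = fun g => pull φ.π (S.spl x g) := by
  symm
  refine S'.spl_unique _ (φ.isCocycle_pull (S.spl_isCocycle x)) ?_ ?_
  · show pull φ.π (S.spl x S'.s) = _
    rw [φ.hs, S.spl_s]; rfl
  · show pull φ.π (S.spl x S'.u) = _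
    rw [φ.hu, S.spl_u]; rfl

lemma isPar_res {y : Additive S.Γ →+ ℤ} (hy : S.IsPar y) : S'.IsPar (φ.res y) := by
  intro γ g k h
  rw [φ.res_apply]
  refine hy ⟨(γ : G), φ.Γ_le γ.2⟩ g k ?_
  rw [← φ.ht]; exact h

/-- restriction on parabolic classes -/
def resPar : S.parSub →ₗ[ℤ] S'.parSub where
  toFun y := ⟨φ.res y, φ.isPar_res y.2⟩
  map_add' _ _ := rfl
  map_smul' _ _ := rfl

lemma resPar_coe (y : S.parSub) : ((φ.resPar y : S'.parSub) : Additive S'.Γ →+ ℤ) = φ.res y := rfl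

/-- **`J' ∘ pull = res ∘ J`** -/
lemma J_pull (x : S.X) : S'.J (φ.pullX x) = φ.resPar (S.J x) := by
  apply Subtype.ext
  have key : ∀ g : G, S'.spl (φ.pullX x) g S'.ω₀ = S.spl x g S.ω₀ := by
    intro g; rw [φ.spl_pull, ← φ.hω]; rfl
  exact AddMonoidHom.ext fun γ => key _

/-! ### `push` -/

section Push

variable [Fintype Ω'] [DecidableEq Ω]

lemma act_push (g : G) (m' : Ω' → ℤ) : act g (push φ.π m') = push φ.π (act g m') :=
  PDInst24.act_push φ.hπ g m'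

omit φ in
lemma push_add (π : Ω' → Ω) (m m₁ : Ω' → ℤ) : push π (m + m₁) = push π m + push π m₁ := by
  funext y; simp [PDInst24.push_apply, Finset.sum_add_distrib]

omit φ in
lemma push_sub (π : Ω' → Ω) (m m₁ : Ω' → ℤ) : push π (m - m₁) = push π m - push π m₁ := by
  funext y; simp [PDInst24.push_apply, Finset.sum_sub_distrib]

omit φ in
lemma push_zero (π : Ω' → Ω) : push π (0 : Ω' → ℤ) = 0 := by
  funext y; simp [PDInst24.push_apply]

omit φ in
lemma push_smul (π : Ω' → Ω) (k : ℤ) (m : Ω' → ℤ) : push π (k • m) = k • push π m := by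
  funext y; simp [PDInst24.push_apply, Finset.mul_sum]

lemma isCocycle_push {z' : G → Ω' → ℤ} (hz' : IsCocycle z') :
    IsCocycle (fun g => push φ.π (z' g)) := PDInst24.isCoc_push φ.hπ hz'

lemma c_push (m' : Ω' → ℤ) : S.c (push φ.π m') = fun g => push φ.π (S'.c m' g) := by
  symm
  refine S.c_unique (φ.isCocycle_push (S'.c_isCocycle m')) ?_ ?_
  · show push φ.π (S'.c m' S.s) = _
    rw [← φ.hs, S'.c_s, push_sub, φ.act_push]
  · show push φ.π (S'.c m' S.u) = _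
    rw [← φ.hu, S'.c_u, push_zero]

lemma push_mem_K {m' : Ω' → ℤ} (h : m' ∈ S'.K) : push φ.π m' ∈ S.K := by
  rw [Setting.mem_K] at h ⊢
  obtain ⟨a, b, ha, hb, rfl⟩ := h
  refine ⟨push φ.π a, push φ.π b, ?_, ?_, (push_add _ _ _).symm⟩
  · rw [← φ.hs, φ.act_push, ha]
  · rw [← φ.hu, φ.act_push, hb]

omit φ in
/-- `pull` and `push` are adjoint for the standard forms -/
lemma ip_pull_push [Fintype Ω] (π : Ω' → Ω) (x : Ω → ℤ) (m' : Ω' → ℤ) :
    ip (pull π x) m' = ip x (push π m') := by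
  unfold ip
  simp only [PDInst24.push_apply, PDInst24.pull_apply, Finset.mul_sum]
  rw [← Finset.sum_fiberwise Finset.univ π (fun ω' => x (π ω') * m' ω')]
  refine Finset.sum_congr rfl fun ω _ => ?_
  refine Finset.sum_congr rfl fun ω' hω' => ?_
  rw [(Finset.mem_filter.mp hω').2]

variable [MulAction.IsPretransitive G Ω'] [MulAction.IsPretransitive G Ω]

lemma Ψ_push_congr {m₁ m₂ : Ω' → ℤ} (h : S'.Ψ m₁ = S'.Ψ m₂) :
    S.Ψ (push φ.π m₁) = S.Ψ (push φ.π m₂) := by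
  rw [Setting.Ψ_eq_iff] at h ⊢
  rw [← push_sub]
  exact φ.push_mem_K h

lemma isPar_Ψ_push [Finite Ω] {m' : Ω' → ℤ} (h : S'.IsPar (S'.Ψ m')) :
    S.IsPar (S.Ψ (push φ.π m')) := by
  rw [Setting.isPar_Ψ_iff] at h ⊢
  obtain ⟨r, hr⟩ := h
  refine ⟨push φ.π r, ?_⟩
  rw [← φ.hs, ← φ.ht, φ.act_push, φ.act_push, ← push_sub, ← push_sub, hr]

/-- the abstract corestriction `Hom(Γ', ℤ) → Hom(Γ, ℤ)`: `cores (Ψ' m') = Ψ (push m')` -/
noncomputable def cores : (Additive S'.Γ →+ ℤ) →ₗ[ℤ] (Additive S.Γ →+ ℤ) where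
  toFun y' := S.Ψ (push φ.π (S'.Ψ_surjective y').choose)
  map_add' y₁ y₂ := by
    rw [← map_add, ← push_add]
    apply φ.Ψ_push_congr
    rw [map_add, (S'.Ψ_surjective y₁).choose_spec, (S'.Ψ_surjective y₂).choose_spec,
      (S'.Ψ_surjective (y₁ + y₂)).choose_spec]
  map_smul' k y := by
    rw [RingHom.id_apply, ← map_smul, ← push_smul]
    apply φ.Ψ_push_congr
    rw [map_smul, (S'.Ψ_surjective y).choose_spec, (S'.Ψ_surjective (k • y)).choose_spec]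

lemma cores_Ψ (m' : Ω' → ℤ) : φ.cores (S'.Ψ m') = S.Ψ (push φ.π m') :=
  φ.Ψ_push_congr (S'.Ψ_surjective (S'.Ψ m')).choose_spec

lemma isPar_cores [Finite Ω] {y' : Additive S'.Γ →+ ℤ} (hy' : S'.IsPar y') :
    S.IsPar (φ.cores y') := by
  obtain ⟨m', rfl⟩ := S'.Ψ_surjective y'
  rw [φ.cores_Ψ]
  exact φ.isPar_Ψ_push hy'

/-- corestriction on parabolic classes -/
noncomputable def coresPar [Finite Ω] : S'.parSub →ₗ[ℤ] S.parSub where
  toFun y' := ⟨φ.cores y', φ.isPar_cores y'.2⟩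
  map_add' y₁ y₂ := Subtype.ext (map_add φ.cores _ _)
  map_smul' k y := Subtype.ext (map_smul φ.cores k _)

lemma coresPar_coe [Finite Ω] (y' : S'.parSub) :
    ((φ.coresPar y' : S.parSub) : Additive S.Γ →+ ℤ) = φ.cores y' := rfl

/-- **`res` and `cores` are adjoint for the intersection forms** -/
theorem form_res_cores [Fintype Ω] [DecidableEq Ω'] (y : S.parSub) (y' : S'.parSub) :
    S'.form (φ.resPar y) y' = S.form y (φ.coresPar y') := by
  obtain ⟨x, rfl⟩ := S.J_surjective y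
  obtain ⟨m', hm'⟩ := S'.Ψ_surjective (y' : Additive S'.Γ →+ ℤ)
  have hpar : S'.IsPar (S'.Ψ m') := by rw [hm']; exact y'.2
  have e1 : y' = ⟨S'.Ψ m', hpar⟩ := Subtype.ext hm'.symm
  have e2 : φ.coresPar y' = ⟨S.Ψ (push φ.π m'), φ.isPar_Ψ_push hpar⟩ := by
    apply Subtype.ext
    rw [coresPar_coe, ← hm', φ.cores_Ψ]
  rw [e2, S.form_J_Ψ, ← φ.J_pull, e1, S'.form_J_Ψ]
  exact ip_pull_push φ.π _ _

/-- **the abstract corestriction is the transfer**: for representatives `r i` of the fibre of `π`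
over the base point and `r i * γ = c i * r (σ i)` with `c i ∈ Γ'`: `cores y' γ = ∑ i, y' (c i)` -/
theorem cores_apply_of_reps (y' : Additive S'.Γ →+ ℤ) {ι : Type*} [Fintype ι] (r : ι → G)
    (hfib : ∀ i, φ.π ((r i)⁻¹ • S'.ω₀) = S.ω₀)
    (hbij : ∀ x, φ.π x = S.ω₀ → ∃! i, (r i)⁻¹ • S'.ω₀ = x)
    (γ : S.Γ) (σ : ι ≃ ι) (c : ι → S'.Γ) (h : ∀ i, r i * (γ : G) = (c i : G) * r (σ i)) :
    φ.cores y' (Additive.ofMul γ) = ∑ i, y' (Additive.ofMul (c i)) := by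
  obtain ⟨m', rfl⟩ := S'.Ψ_surjective y'
  rw [φ.cores_Ψ]
  have hγ : (γ : G) ∈ MulAction.stabilizer G (φ.π S'.ω₀) := by rw [φ.hω]; exact γ.2
  have key := PDInst24.sum_ev_eq_ev_push φ.hπ S'.ω₀ (z' := S'.c m') (S'.c_isCocycle m') r
    (fun i => by rw [hfib i, φ.hω]) (fun x hx => hbij x (by rw [hx, φ.hω])) ⟨(γ : G), hγ⟩ σ c h
  have e : S.Ψ (push φ.π m') (Additive.ofMul γ) = push φ.π (S'.c m' (γ : G)) (φ.π S'.ω₀) := by
    rw [Setting.Ψ_apply, φ.c_push, φ.hω]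
  rw [e]
  exact key.symm

end Push

end Setting.Mor

end Fermat.Agent.S41.PDCore84
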